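import Fermat.Agent.S15.B.Raise.Decomp

/-!
# S15 / B / Raise / Start : `f = c * n * (1 + ϖ z)` with `n` fixed (abstract, over `S19/Geo0`)
-/

set_option autoImplicit false
set_option linter.unusedSectionVars false

namespace Fermat.Agent.S15.B.Raise

open AlgebraicCurve Fermat.Agent.S26 Fermat.Agent.S37.Red Fermat.Agent.S19.Geo0

variable {K k : Type*} [Field K] [Field k] {A : ValuationSubring K} {π : A →+* k}
variable {F Ft : Type*} [Field F] [Field Ft] [Algebra K F] [Algebra k Ft]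
variable {Γ : Type*} [Group Γ] {α : Γ →* SemilinearAut K F}
variable {V : VFF A π F Ft} {ϖ : K} {y : F} {yt : Ft}
variable [IsAlgClosed K] [FF1 K F] [IsAlgClosed k] [FF1 k Ft]

/-! ### TASK S15/B-Raise-D2 -/

/-- a function with reduction `0` is `ϖ' * (element of O)` with `ϖ' ∈ m_A`.  (`g = 0` : `ϖ' = 0`.  Otherwise `V.exists_scale g` : `c g ∈ O` with nonzero reduction; `c ∉ A`, since otherwise
`Red (c g) (res c * 0)` (`V.red_const`, `Red.mul`, `Red.unique`); so `ϖ' := c⁻¹ ∈ m_A` (`inv_mem_nonunits_of_not_mem`, used in `S19/Geo0/Rat.lean`), `z := c g`.) -/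
theorem exists_eq_nonunit_mul {g : F} (hg : V.Red g 0) :
    ∃ ϖ' ∈ A.nonunits, ∃ z ∈ V.O, g = algebraMap K F ϖ' * z := by
  by_cases hg0 : g = 0
  · refine ⟨0, ?_, 0, zero_mem _, by rw [hg0, mul_zero]⟩
    rw [ValuationSubring.mem_nonunits_iff, map_zero]
    exact zero_lt_one
  · obtain ⟨a, f', g', ha, -, -, hf', h⟩ := V.exists_eq_mul_of_red_zero hg hg0
    exact ⟨a, ha, f', hf'.mem, h⟩

/-- **START.**  every `f ≠ 0` is `c * n * (1 + ϖ' z)`, `c` a constant, `n` fixed, `ϖ' ∈ m_A`, `z ∈ O`.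
`V.exists_scale f` : `Red (c₀ f) ft`, `ft ≠ 0`.  `f ∈ L(D)`, `D` fixed, so `ft ∈ ImL V D`; `exists_fix_lift` : `n` fixed, `Red n ft` (so `n ≠ 0`).  `Red (c₀ f / n) 1` (`Red.inv`/`Red.mul` or `V.red_div`),
`Red (c₀ f / n - 1) 0`, `exists_eq_nonunit_mul`.  `c := c₀⁻¹`. -/
theorem exists_start (hG : Good V y yt) (hR : RatStr α V ϖ y) {f : F} (hf : f ≠ 0) :
    ∃ (c : K) (n : F), c ≠ 0 ∧ n ≠ 0 ∧ FixF α n ∧ ∃ ϖ' ∈ A.nonunits, ∃ z ∈ V.O,
      f = algebraMap K F c * n * (1 + algebraMap K F ϖ' * z) := by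
  obtain ⟨c₀, ft, hc₀, hft, hred⟩ := V.exists_scale' hf
  obtain ⟨D, hD, hfD⟩ := exists_fixD_mem hR f
  have hIm : ft ∈ ImL V D := by
    refine ⟨algebraMap K F c₀ * f, ?_, hred⟩
    rw [← Algebra.smul_def]
    exact Submodule.smul_mem _ _ hfD
  obtain ⟨n, hnfix, -, hnred⟩ := exists_fix_lift hG hR hD hIm
  have hn0 : n ≠ 0 := hnred.ne_zero hft
  have h1 : V.Red (algebraMap K F c₀ * f / n - 1) 0 := by
    have := (hred.div hnred hft).sub V.red_one
    rwa [div_self hft, sub_self] at this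
  obtain ⟨ϖ', hϖ', z, hz, hzeq⟩ := exists_eq_nonunit_mul h1
  have hcF : algebraMap K F c₀ ≠ 0 := (_root_.map_ne_zero _).2 hc₀
  refine ⟨c₀⁻¹, n, inv_ne_zero hc₀, hn0, hnfix, ϖ', hϖ', z, hz, ?_⟩
  rw [← hzeq, map_inv₀]
  field_simp
  ring

end Fermat.Agent.S15.B.Raise
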