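import Fermat.Agent.S15.B.Raise.Iter
import Fermat.Agent.S15.B.Raise.Start

/-!
# S15 / B / Raise / Main : EXPORTS of (Raise)

`T := ES.heckeU N e he heN` (multiplicative `T_e` on `(FF N)ˣ`), `A ∣ e`, `O := (gaussVFF N A).O`.
* `raise`          (R1) : `∀ f, ∃ k₀, ∀ k ≥ k₀ : T^k f = c * n * m^e * (1 + e x)`, `c ≠ 0` constant, `n` fixed by inertia, `x ∈ O`;
* `raise_red_one`  (R2) : if `c₀ f` reduces to `1` : the same with `n = 1`;
* `raise_redConst` (R2') : the same for `SS.RedConst A f`.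
-/

set_option autoImplicit false

open AlgebraicCurve ModularCurve

namespace Fermat.Agent.S15.B.Raise

open Fermat.Agent.ES (Qb FF GQ galF Vq normSer heckeSer twist)
open Fermat.Agent.S37.Mod
open Fermat.Agent

noncomputable section

variable {A : ValuationSubring Qb} {e : ℕ} {N : ℕ} [NeZero N]

/-! ### TASK S15/B-Raise-M3 : the exports -/

/-- **(R1)**  `exists_start hG hR` : `f = c n (1 + ϖ' z)`; `w := 1 + ϖ' z` is a unit (`f ≠ 0`), `U1.of_O`; `raise_U1`; `iterate_heckeU_mul`, `iterate_heckeU_cU`, `iterate_heckeU_fix` (`S19.Mod.fixF_iff`). -/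
theorem raise [NeZero e] (he : e.Prime) (heN : ¬ e ∣ N) (hA : A.LiesOverPrime e)
    {y : FF N} {yt : resF N A} (hG : S19.Geo0.Good (gaussVFF N A) y yt)
    (hR : S19.Geo0.RatStr (S19.Mod.αI N A) (gaussVFF N A) (e : Qb) y) (f : (FF N)ˣ) :
    ∃ k₀ : ℕ, ∀ k ≥ k₀, ∃ (c : Qb) (n m : (FF N)ˣ) (x : FF N), c ≠ 0 ∧
      (∀ σ ∈ A.inertiaSubgroupIn ℚ, galF N σ (n : FF N) = n) ∧ x ∈ (gaussVFF N A).O ∧
      (((ES.heckeU N e he heN)^[k] f : (FF N)ˣ) : FF N)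
        = algebraMap Qb (FF N) c * n * (m : FF N) ^ e * (1 + algebraMap Qb (FF N) (e : Qb) * x) := by
  obtain ⟨c, n, hc, hn, hfix, ϖ', hϖ', z, hz, hf⟩ :=
    exists_start (α := S19.Mod.αI N A) (V := gaussVFF N A) hG hR f.ne_zero
  have hw0 : (1 + algebraMap Qb (FF N) ϖ' * z : FF N) ≠ 0 := by
    intro h
    rw [h, mul_zero] at hf
    exact f.ne_zero hf
  obtain ⟨k₀, hk₀⟩ := raise_U1 he heN hA hG hR hϖ' (Units.mk0 _ hw0) (U1.of_O hz)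
  have hfU : f = cU N c hc * Units.mk0 n hn * Units.mk0 _ hw0 := Units.ext hf
  refine ⟨k₀, fun k hk => ?_⟩
  obtain ⟨m, x, hx, hm⟩ := hk₀ k hk
  obtain ⟨c', hc', hcc⟩ := iterate_heckeU_cU (N := N) he heN c hc k
  refine ⟨c', (ES.heckeU N e he heN)^[k] (Units.mk0 n hn), m, x, hc',
    iterate_heckeU_fix he heN (n := Units.mk0 n hn) (S19.Mod.fixF_iff.1 hfix) k, hx, ?_⟩
  rw [hfU, iterate_heckeU_mul, iterate_heckeU_mul, hcc, Units.val_mul, Units.val_mul, hm, coe_cU]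
  ring

/-- **(R2)**  `Red (c₀ f - 1) 0`, `exists_eq_nonunit_mul` : `c₀ f = 1 + ϖ' z`; then as for `raise`. -/
theorem raise_red_one [NeZero e] (he : e.Prime) (heN : ¬ e ∣ N) (hA : A.LiesOverPrime e)
    {y : FF N} {yt : resF N A} (hG : S19.Geo0.Good (gaussVFF N A) y yt)
    (hR : S19.Geo0.RatStr (S19.Mod.αI N A) (gaussVFF N A) (e : Qb) y) (f : (FF N)ˣ)
    {c₀ : Qb} (hc₀ : c₀ ≠ 0) (hf : (gaussVFF N A).Red (algebraMap Qb (FF N) c₀ * f) 1) :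
    ∃ k₀ : ℕ, ∀ k ≥ k₀, ∃ (c : Qb) (m : (FF N)ˣ) (x : FF N), c ≠ 0 ∧ x ∈ (gaussVFF N A).O ∧
      (((ES.heckeU N e he heN)^[k] f : (FF N)ˣ) : FF N)
        = algebraMap Qb (FF N) c * (m : FF N) ^ e * (1 + algebraMap Qb (FF N) (e : Qb) * x) := by
  have h0 : (gaussVFF N A).Red (algebraMap Qb (FF N) c₀ * f - 1) 0 := by
    have := hf.sub (gaussVFF N A).red_one
    rwa [sub_self] at this
  obtain ⟨ϖ', hϖ', z, hz, hg⟩ := exists_eq_nonunit_mul (V := gaussVFF N A) h0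
  have hc₀' : algebraMap Qb (FF N) c₀ ≠ 0 := (map_ne_zero _).2 hc₀
  have hg' : algebraMap Qb (FF N) c₀ * f = 1 + algebraMap Qb (FF N) ϖ' * z := by
    rw [← hg]; ring
  have hw0 : (1 + algebraMap Qb (FF N) ϖ' * z : FF N) ≠ 0 := by
    rw [← hg']
    exact mul_ne_zero hc₀' f.ne_zero
  obtain ⟨k₀, hk₀⟩ := raise_U1 he heN hA hG hR hϖ' (Units.mk0 _ hw0) (U1.of_O hz)
  have hfU : f = cU N c₀⁻¹ (inv_ne_zero hc₀) * Units.mk0 _ hw0 := by
    refine Units.ext ?_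
    rw [Units.val_mul, coe_cU, Units.val_mk0, ← hg', map_inv₀, inv_mul_cancel_left₀ hc₀']
  refine ⟨k₀, fun k hk => ?_⟩
  obtain ⟨m, x, hx, hm⟩ := hk₀ k hk
  obtain ⟨c', hc', hcc⟩ := iterate_heckeU_cU (N := N) he heN c₀⁻¹ (inv_ne_zero hc₀) k
  refine ⟨c', m, x, hc', hx, ?_⟩
  rw [hfU, iterate_heckeU_mul, hcc, Units.val_mul, hm, coe_cU]
  ring

/-- `SS.RedConst A f` ⇒ `c f` reduces to `1` (`S37.Mod.red_iff`; `RedRel N A (c f) 1` with `a := y₁`, `b := y₂`; `ES.resA A = IsLocalRing.residue A` by `rfl`). -/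
theorem red_one_of_redConst {f : FF N} (hf : SS.RedConst A f) :
    ∃ c₀ : Qb, c₀ ≠ 0 ∧ (gaussVFF N A).Red (algebraMap Qb (FF N) c₀ * f) 1 := by
  obtain ⟨c, y₁, y₂, hc, h1, h2, h12, h20, heq⟩ := hf
  refine ⟨c, hc, red_iff.2 ⟨y₁, y₂, h1, h2, h20, heq, ?_⟩⟩
  rw [show ((1 : resF N A) : LaurentSeries (kA A)) = 1 from rfl, one_mul]
  exact h12.symm

/-- **(R2')** -/
theorem raise_redConst [NeZero e] (he : e.Prime) (heN : ¬ e ∣ N) (hA : A.LiesOverPrime e)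
    {y : FF N} {yt : resF N A} (hG : S19.Geo0.Good (gaussVFF N A) y yt)
    (hR : S19.Geo0.RatStr (S19.Mod.αI N A) (gaussVFF N A) (e : Qb) y) (f : (FF N)ˣ)
    (hf : SS.RedConst A (f : FF N)) :
    ∃ k₀ : ℕ, ∀ k ≥ k₀, ∃ (c : Qb) (m : (FF N)ˣ) (x : FF N), c ≠ 0 ∧ x ∈ (gaussVFF N A).O ∧
      (((ES.heckeU N e he heN)^[k] f : (FF N)ˣ) : FF N)
        = algebraMap Qb (FF N) c * (m : FF N) ^ e * (1 + algebraMap Qb (FF N) (e : Qb) * x) := by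
  obtain ⟨c₀, hc₀, h⟩ := red_one_of_redConst hf
  exact raise_red_one he heN hA hG hR f hc₀ h

end

end Fermat.Agent.S15.B.Raise
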