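import Fermat.Agent.S19.Geo0.Rat

/-!
# S15 / B / Raise / Decomp : `O = A · O^Γ` and fixed lifts (abstract, over `S19/Geo0`)
-/

set_option autoImplicit false
set_option linter.unusedSectionVars false

namespace Fermat.Agent.S15.B.Raise

open AlgebraicCurve Fermat.Agent.S26 Fermat.Agent.S37.Red Fermat.Agent.S19.Geo0

variable {K k : Type*} [Field K] [Field k] {A : ValuationSubring K} {π : A →+* k}
variable {F Ft : Type*} [Field F] [Field Ft] [Algebra K F] [Algebra k Ft]
variable {Γ : Type*} [Group Γ] {α : Γ →* SemilinearAut K F}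
variable {V : VFF A π F Ft} {ϖ : K} {y : F} {yt : Ft}
variable [IsAlgClosed K] [FF1 K F] [IsAlgClosed k] [FF1 k Ft]

/-! ### TASK S15/B-Raise-D1 -/

/-- every function lies in `L(D)` for a FIXED divisor `D`.
`x ∈ span K {fixed}` (`hR.fix_span`), `Submodule.span_induction` (or `mem_span_set'` / `Submodule.mem_span_iff_exists_finset_subset`) : the set of `x` for which such a `D` exists contains the fixed `u`
(`D := poleDivisor u`, `FixF.fixD_poleDivisor`; `u ∈ L(poleDivisor u)` : `mem_LSpace`, `ord u + poleDivisor u ≥ 0`), `0`, is stable under `c • _` (same `D`) and under sums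
(`D := D₁ + D₂` if both are effective (carry `∀ v, 0 ≤ D v` in the induction), `LSpace_mono`, `FixD.add`). -/
theorem exists_fixD_mem (hR : RatStr α V ϖ y) (x : F) :
    ∃ D : Divisor K F, FixD α D ∧ x ∈ LSpace D := by
  have hx : x ∈ Submodule.span K {u : F | FixF α u} := by rw [hR.fix_span]; trivial
  suffices H : ∃ D : Divisor K F, FixD α D ∧ (∀ v, 0 ≤ D v) ∧ x ∈ LSpace D by
    obtain ⟨D, h1, -, h2⟩ := H
    exact ⟨D, h1, h2⟩
  induction hx using Submodule.span_induction with
  | mem u hu =>
    refine ⟨poleDivisor (Ω := K) u, FixF.fixD_poleDivisor hu, fun v => ?_, ?_⟩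
    · rw [poleDivisor_apply]; exact le_max_left _ _
    · rw [mem_LSpace]
      right
      intro v
      rw [poleDivisor_apply]
      have := le_max_right 0 (-v.ord u)
      omega
  | zero =>
    exact ⟨0, fun σ => smul_zero _, fun v => le_rfl, zero_mem _⟩
  | add a b _ _ ha hb =>
    obtain ⟨D₁, h1, h1', h1''⟩ := ha
    obtain ⟨D₂, h2, h2', h2''⟩ := hb
    refine ⟨D₁ + D₂, h1.add h2, fun v => ?_, add_mem ?_ ?_⟩
    · rw [Finsupp.add_apply]; exact add_nonneg (h1' v) (h2' v)
    · refine LSpace_mono (fun v => ?_) h1''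
      rw [Finsupp.add_apply]
      have := h2' v
      omega
    · refine LSpace_mono (fun v => ?_) h2''
      rw [Finsupp.add_apply]
      have := h1' v
      omega
  | smul c a _ ha =>
    obtain ⟨D, h1, h1', h1''⟩ := ha
    exact ⟨D, h1, h1', Submodule.smul_mem _ _ h1''⟩

/-- **`O = A · O^Γ`.**  `x ∈ L(D)`, `D` fixed (`exists_fixD_mem`).  `bt := Module.finBasis k (ImL V D)` (`finite_ImL hG D`), fixed lifts `u i ∈ L(D)` of `bt i` (`exists_fix_lift hG hR hD (bt i).2`);
`span_lift_eq hG D u _ ..` : they span `L(D)`, so `x = ∑ c i • u i` (`Submodule.mem_span_range_iff_exists_fun`), and `mem_O_iff_of_red V hred hli c` gives `c i ∈ A`.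
(The proof of `exists_basis_lift_fix` in `S19/Geo0/Rat.lean` contains all the steps.) -/
theorem exists_fix_decomp (hG : Good V y yt) (hR : RatStr α V ϖ y) {x : F} (hx : x ∈ V.O) :
    ∃ (n : ℕ) (c : Fin n → K) (u : Fin n → F), (∀ i, c i ∈ A) ∧ (∀ i, FixF α (u i)) ∧
      (∀ i, u i ∈ V.O) ∧ x = ∑ i, c i • u i := by
  obtain ⟨D, hD, hxD⟩ := exists_fixD_mem hR x
  have := finite_ImL hG D
  let bt := Module.finBasis k (ImL V D)
  have hmem : ∀ i, ∃ f : F, FixF α f ∧ f ∈ LSpace D ∧ V.Red f (bt i : Ft) :=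
    fun i => exists_fix_lift hG hR hD (bt i).2
  choose f hfix hf hred using hmem
  have hli : LinearIndependent k (fun i => (bt i : Ft)) :=
    bt.linearIndependent.map' (ImL V D).subtype (Submodule.ker_subtype _)
  have hspan : Submodule.span k (Set.range (fun i => (bt i : Ft))) = ImL V D := by
    have h1 : Set.range (fun i => (bt i : Ft)) = (ImL V D).subtype '' Set.range bt := by
      rw [← Set.range_comp]; rfl
    rw [h1, ← Submodule.map_span, bt.span_eq, Submodule.map_subtype_top]
  have hs := span_lift_eq hG D f _ hf hred hli hspan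
  have hx' : x ∈ Submodule.span K (Set.range f) := by rw [hs]; exact hxD
  obtain ⟨c, hc⟩ := (Submodule.mem_span_range_iff_exists_fun K).1 hx'
  refine ⟨_, c, f, ?_, hfix, fun i => (hred i).mem, hc.symm⟩
  exact (mem_O_iff_of_red V hred hli c).1 (by rw [hc]; exact hx)

end Fermat.Agent.S15.B.Raise
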