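import Fermat.Agent.S15.B.Raise.Gauss

/-!
# S15 / B / Raise / Dream : freshman's dream in `GR A`
-/

set_option autoImplicit false

open AlgebraicCurve ModularCurve

namespace Fermat.Agent.S15.B.Raise

open Fermat.Agent.ES (Qb FF GQ galF Vq normSer heckeSer twist)
open Fermat.Agent.S37.Mod
open Fermat.Agent

noncomputable section

variable {A : ValuationSubring Qb} {e : ℕ}

/-! ### TASK S15/B-Raise-L1 -/

/-- freshman's dream for finite sums in a commutative ring (`Finset.induction_on`, `exists_add_pow_prime_eq`). -/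
theorem exists_sum_pow_eq {R : Type*} [CommRing R] (he : e.Prime) {ι : Type*} (s : Finset ι)
    (t : ι → R) : ∃ r : R, (∑ i ∈ s, t i) ^ e = ∑ i ∈ s, t i ^ e + (e : R) * r := by
  classical
  induction s using Finset.induction_on with
  | empty => exact ⟨0, by simp [he.ne_zero]⟩
  | insert a s ha ih =>
    obtain ⟨r, hr⟩ := ih
    obtain ⟨r', hr'⟩ := exists_add_pow_prime_eq he (t a) (∑ i ∈ s, t i)
    refine ⟨r + t a * (∑ i ∈ s, t i) * r', ?_⟩
    rw [Finset.sum_insert ha, Finset.sum_insert ha, hr', hr]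
    ring

/-- the same in `GR A` (apply `exists_sum_pow_eq` in the ring `↥(GR A)` and coerce). -/
theorem exists_sum_pow_eq_GR (he : e.Prime) {n : ℕ} (t : Fin n → LaurentSeries Qb)
    (ht : ∀ i, t i ∈ GR A) :
    ∃ r ∈ GR A, (∑ i, t i) ^ e = ∑ i, t i ^ e + cs (e : Qb) * r := by
  obtain ⟨r, hr⟩ := exists_sum_pow_eq (R := ↥(GR A)) he Finset.univ (fun i => ⟨t i, ht i⟩)
  refine ⟨r, r.2, ?_⟩
  have h := congrArg (Subtype.val) hr
  simpa using h

/-- `(1 + t)^e = 1 + t^e + e t r` in `GR A` (`exists_add_pow_prime_eq he 1 t` in `↥(GR A)`). -/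
theorem exists_one_add_pow_eq_GR (he : e.Prime) {t : LaurentSeries Qb} (ht : t ∈ GR A) :
    ∃ r ∈ GR A, (1 + t) ^ e = 1 + t ^ e + cs (e : Qb) * (t * r) := by
  obtain ⟨r, hr⟩ := exists_add_pow_prime_eq (R := ↥(GR A)) he 1 ⟨t, ht⟩
  refine ⟨r, r.2, ?_⟩
  have h := congrArg (Subtype.val) hr
  simp only [Subring.coe_add, Subring.coe_pow, Subring.coe_mul, Subring.coe_one,
    Subring.coe_natCast, one_pow, mul_one] at h
  have hc : cs (e : Qb) = (e : LaurentSeries Qb) := map_natCast _ e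
  rw [h, hc, mul_assoc]

end

end Fermat.Agent.S15.B.Raise
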