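import Fermat.Agent.S15.B.Raise.Main
import Fermat.Agent.S15.B.Depth

/-!
# S15 / B / Raise / Export : (R1), (R2) in the language of `B/Depth.lean`

`T := ES.heckeU N e he heN`.
* `raise_GE` : `∀ f, ∃ k₀, ∀ k ≥ k₀, GE (αI N A) (gaussVFF N A) e (T^k f)`;
* `raise_Dp` : if `f` is `SS.RedConst A` : `∃ k₀, ∀ k ≥ k₀, Dp (gaussVFF N A) e (T^k f)`.
-/

set_option autoImplicit false

open AlgebraicCurve ModularCurve

namespace Fermat.Agent.S15.B.Raise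

open Fermat.Agent.ES (Qb FF GQ galF)
open Fermat.Agent.S37.Mod
open Fermat.Agent

noncomputable section

variable {A : ValuationSubring Qb} {e : ℕ} {N : ℕ} [NeZero N]

theorem one_of_mem_O {c : Qb} {x : FF N} (hx : x ∈ (gaussVFF N A).O) :
    B.One (gaussVFF N A) c (1 + algebraMap Qb (FF N) c * x) := by
  obtain ⟨xt, hxt⟩ := (gaussVFF N A).exists_red hx
  exact ⟨x, xt, hxt, rfl⟩

/-- **(R1)** -/
theorem raise_GE [NeZero e] (he : e.Prime) (heN : ¬ e ∣ N) (hA : A.LiesOverPrime e)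
    {y : FF N} {yt : resF N A} (hG : S19.Geo0.Good (gaussVFF N A) y yt)
    (hR : S19.Geo0.RatStr (S19.Mod.αI N A) (gaussVFF N A) (e : Qb) y) (f : (FF N)ˣ) :
    ∃ k₀ : ℕ, ∀ k ≥ k₀, B.GE (S19.Mod.αI N A) (gaussVFF N A) e
      (((ES.heckeU N e he heN)^[k] f : (FF N)ˣ) : FF N) := by
  obtain ⟨k₀, h⟩ := raise he heN hA hG hR f
  refine ⟨k₀, fun k hk => ?_⟩
  obtain ⟨c, n, m, x, hc, hn, hx, hT⟩ := h k hk
  exact ⟨c, n, m, _, hc, n.ne_zero, S19.Mod.fixF_iff.2 hn, m.ne_zero, one_of_mem_O hx, hT⟩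

/-- **(R2)** -/
theorem raise_Dp_of_red_one [NeZero e] (he : e.Prime) (heN : ¬ e ∣ N) (hA : A.LiesOverPrime e)
    {y : FF N} {yt : resF N A} (hG : S19.Geo0.Good (gaussVFF N A) y yt)
    (hR : S19.Geo0.RatStr (S19.Mod.αI N A) (gaussVFF N A) (e : Qb) y) (f : (FF N)ˣ)
    {c₀ : Qb} (hc₀ : c₀ ≠ 0) (hf : (gaussVFF N A).Red (algebraMap Qb (FF N) c₀ * f) 1) :
    ∃ k₀ : ℕ, ∀ k ≥ k₀, B.Dp (gaussVFF N A) e
      (((ES.heckeU N e he heN)^[k] f : (FF N)ˣ) : FF N) := by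
  obtain ⟨k₀, h⟩ := raise_red_one he heN hA hG hR f hc₀ hf
  refine ⟨k₀, fun k hk => ?_⟩
  obtain ⟨c, m, x, hc, hx, hT⟩ := h k hk
  exact ⟨c, m, _, hc, m.ne_zero, one_of_mem_O hx, hT⟩

/-- **(R2')** -/
theorem raise_Dp [NeZero e] (he : e.Prime) (heN : ¬ e ∣ N) (hA : A.LiesOverPrime e)
    {y : FF N} {yt : resF N A} (hG : S19.Geo0.Good (gaussVFF N A) y yt)
    (hR : S19.Geo0.RatStr (S19.Mod.αI N A) (gaussVFF N A) (e : Qb) y) (f : (FF N)ˣ)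
    (hf : SS.RedConst A (f : FF N)) :
    ∃ k₀ : ℕ, ∀ k ≥ k₀, B.Dp (gaussVFF N A) e
      (((ES.heckeU N e he heN)^[k] f : (FF N)ˣ) : FF N) := by
  obtain ⟨c₀, hc₀, h⟩ := red_one_of_redConst hf
  exact raise_Dp_of_red_one he heN hA hG hR f hc₀ h

end

end Fermat.Agent.S15.B.Raise
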