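import Fermat.Agent.S15.B.Raise.GaussGal
import Fermat.Agent.S37.Formal
import Fermat.Agent.S54.Frobenius

/-!
# S15 / B / Raise / Frob : `x(q^e) ≡ (φ⁻¹ x)^e  mod e`  for inertia-invariant Gauss-integral functions

`A ∣ e`, `φ` a Frobenius element at `A` (`A.IsFrobeniusAt φ e`), `I = A.inertiaSubgroupIn ℚ`.
* (F1) `a ∈ m_A` fixed by `I`  ⇒  `a ∈ e A`  (`e` is a uniformiser of `A ∩ ℚ̄^I`);
* (F2) `a ∈ A` fixed by `I`  ⇒  `a ≡ (φ⁻¹ a)^e mod e A`;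
* (F3) the same for series `a ∈ A((q))` with fixed coefficients : `a(q^e) ≡ (φ⁻¹ a)^e mod e A((q))`;
* (F4) a fixed function of `O` is a quotient of integral series with FIXED coefficients;
* (F5) `x ∈ O` fixed  ⇒  `x(q^e) - (φ⁻¹ x)^e ∈ e GR`.
-/

set_option autoImplicit false

open AlgebraicCurve ModularCurve

namespace Fermat.Agent.S15.B.Raise

open Fermat.Agent.ES (Qb FF GQ galF Vq normSer heckeSer twist)
open Fermat.Agent.S37.Mod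
open Fermat.Agent

noncomputable section

variable {A : ValuationSubring Qb} {e : ℕ}

/-! ### TASK S15/B-Raise-F1 : constants -/

/-- (F1)  `a = 0` trivial.  `S36.Base.exists_zpow_mul_mem he hA (S36.Base.mem_L0_iff.2 hfix) h0` : `u := a * e^n` is a unit of `A`.  If `n ≥ 0` then `u ∈ m_A` (`a ∈ m_A`, `e^n ∈ A`),
contradiction; so `n = -(m+1)` and `a = e * (e^m * u)`. -/
theorem exists_eq_natCast_mul (he : e.Prime) (hA : A.LiesOverPrime e) {a : Qb}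
    (ha : a ∈ A.nonunits) (hfix : ∀ σ ∈ A.inertiaSubgroupIn ℚ, σ a = a) :
    ∃ b ∈ A, a = (e : Qb) * b := by
  by_cases h0 : a = 0
  · exact ⟨0, A.zero_mem, by rw [h0, mul_zero]⟩
  obtain ⟨n, h1, h2⟩ := S36.Base.exists_zpow_mul_mem he hA (S36.Base.mem_L0_iff.2 hfix) h0
  have he0 : (e : Qb) ≠ 0 := Nat.cast_ne_zero.2 he.ne_zero
  have heA : (e : Qb) ∈ A := natCast_mem A e
  rcases le_or_gt 0 n with hn | hn
  · exfalso
    obtain ⟨m, rfl⟩ := Int.eq_ofNat_of_zero_le hn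
    rw [zpow_natCast] at h1 h2
    have hv1 : A.valuation a < 1 := ha
    have hv2 : A.valuation ((e : Qb) ^ m) ≤ 1 := (A.valuation_le_one_iff _).2 (pow_mem heA m)
    have hv3 : A.valuation (a * (e : Qb) ^ m) < 1 := by
      rw [map_mul]
      exact mul_lt_one_of_lt_of_le hv1 hv2
    have hv4 : A.valuation (a * (e : Qb) ^ m)⁻¹ ≤ 1 := (A.valuation_le_one_iff _).2 h2
    rw [map_inv₀] at hv4
    have hne : A.valuation (a * (e : Qb) ^ m) ≠ 0 :=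
      (Valuation.ne_zero_iff _).2 (mul_ne_zero h0 (pow_ne_zero m he0))
    have hv5 : 1 ≤ A.valuation (a * (e : Qb) ^ m) := by
      rwa [inv_le_one₀ (zero_lt_iff.2 hne)] at hv4
    exact absurd hv3 (not_lt.2 hv5)
  · obtain ⟨m, rfl⟩ : ∃ m : ℕ, n = -((m : ℤ) + 1) := ⟨(-n - 1).toNat, by omega⟩
    refine ⟨(e : Qb) ^ m * (a * (e : Qb) ^ (-((m : ℤ) + 1))), mul_mem (pow_mem heA m) h1, ?_⟩
    rw [zpow_neg, zpow_add_one₀ he0, zpow_natCast]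
    field_simp

/-- `φ⁻¹` preserves `ℚ̄^I` : `σ (φ⁻¹ a) = φ⁻¹ ((φ σ φ⁻¹) a)` and `S37.conj_mem_inertiaSubgroupIn A hφ hσ`. -/
theorem fix_symm {φ : GQ} (hφ : φ ∈ A.decompositionSubgroup ℚ) {a : Qb}
    (hfix : ∀ σ ∈ A.inertiaSubgroupIn ℚ, σ a = a) :
    ∀ σ ∈ A.inertiaSubgroupIn ℚ, σ (φ⁻¹ a) = φ⁻¹ a := by
  intro σ hσ
  have h := hfix _ (S37.conj_mem_inertiaSubgroupIn A hφ hσ)
  rw [AlgEquiv.mul_apply, AlgEquiv.mul_apply] at h
  have h2 := congrArg (fun x => φ⁻¹ x) h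
  rwa [← AlgEquiv.mul_apply, inv_mul_cancel, AlgEquiv.one_apply] at h2

/-- the decomposition group preserves `A` (`(ES.galA ⟨g, hg⟩ ⟨a, ha⟩).2`). -/
theorem dec_mem {g : GQ} (hg : g ∈ A.decompositionSubgroup ℚ) {a : Qb} (ha : a ∈ A) : g a ∈ A :=
  (ES.galA ⟨g, hg⟩ ⟨a, ha⟩).2

/-- (F2)  `b := φ⁻¹ a ∈ A` is fixed by `I` (`fix_symm`), `φ b - b^e ∈ m_A` (`ES.res_galA_of_frobenius`: `res (φ b) = (res b)^e`;
`IsLocalRing.residue_eq_zero_iff`, `ValuationSubring.coe_mem_nonunits_iff` / `mem_nonunits_iff_exists_mem_maximalIdeal`) and it is fixed by `I`; apply (F1). -/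
theorem exists_frob_congr (he : e.Prime) (hA : A.LiesOverPrime e) {φ : GQ}
    (hφ : A.IsFrobeniusAt φ e) {a : Qb} (ha : a ∈ A)
    (hfix : ∀ σ ∈ A.inertiaSubgroupIn ℚ, σ a = a) :
    ∃ b ∈ A, a = (φ⁻¹ a) ^ e + (e : Qb) * b := by
  obtain ⟨hdec, hfr⟩ := hφ
  have hb : φ⁻¹ a ∈ A := dec_mem (inv_mem hdec) ha
  have hbfix := fix_symm hdec hfix
  have hφb : φ (φ⁻¹ a) = a := by
    rw [← AlgEquiv.mul_apply, mul_inv_cancel, AlgEquiv.one_apply]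
  have h1 := hfr (IsLocalRing.residue A ⟨φ⁻¹ a, hb⟩)
  rw [← IsLocalRing.ResidueField.residue_smul, ← map_pow] at h1
  have h2 : ((⟨φ, hdec⟩ : A.decompositionSubgroup ℚ) • (⟨φ⁻¹ a, hb⟩ : A)) = ⟨a, ha⟩ :=
    Subtype.ext hφb
  rw [h2, ← sub_eq_zero, ← map_sub, IsLocalRing.residue_eq_zero_iff,
    ← ValuationSubring.coe_mem_nonunits_iff] at h1
  have h3 : a - (φ⁻¹ a) ^ e ∈ A.nonunits := h1
  obtain ⟨c, hc, e1⟩ := exists_eq_natCast_mul he hA h3 (fun σ hσ => by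
    rw [map_sub, map_pow, hfix σ hσ, hbfix σ hσ])
  exact ⟨c, hc, by rw [← e1]; ring⟩

end

end Fermat.Agent.S15.B.Raise
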