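import Fermat.Agent.S15.B.Raise.GaussGal

/-!
# S15 / B / Raise / FrobFrac  (see the header of `FrobConst.lean`)
-/

set_option autoImplicit false

open AlgebraicCurve ModularCurve

namespace Fermat.Agent.S15.B.Raise

open Fermat.Agent.ES (Qb FF GQ galF Vq normSer heckeSer twist)
open Fermat.Agent.S37.Mod
open Fermat.Agent

noncomputable section

variable {A : ValuationSubring Qb} {e : ℕ}

/-! ### TASK S15/B-Raise-F3 : fixed functions are quotients of fixed integral series -/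

/-- the residue of `e` is `0`. -/
theorem FrobFrac_residue_natCast (hA : A.LiesOverPrime e) : IsLocalRing.residue A (e : A) = 0 := by
  rw [IsLocalRing.residue_eq_zero_iff]
  obtain ⟨ha, h⟩ := ValuationSubring.mem_nonunits_iff_exists_mem_maximalIdeal.1 hA
  have : (⟨(e : Qb), ha⟩ : A) = (e : A) := Subtype.ext (by simp)
  rwa [this] at h

/-- coefficients of a rational multiple of an invariant series are invariant. -/
theorem FrobFrac_coeff_fixed {N : ℕ} (c : LaurentSeries A) (r : Qb) (R : FF N) (σ : GQ)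
    (hr : σ r = r) (hR : galF N σ R = R)
    (h : io A c = algebraMap Qb (LaurentSeries Qb) r * (R : LaurentSeries Qb)) (n : ℤ) :
    σ (c.coeff n : Qb) = (c.coeff n : Qb) := by
  have h1 : (c.coeff n : Qb) = r * (R : LaurentSeries Qb).coeff n := by
    have := congrArg (fun z : LaurentSeries Qb => z.coeff n) h
    simp only [S24.Gen.coeff_algebraMap_mul] at this
    rw [← this]
    rfl
  have h2 : σ ((R : LaurentSeries Qb).coeff n) = (R : LaurentSeries Qb).coeff n := by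
    have := congrArg (fun z : FF N => (z : LaurentSeries Qb).coeff n) hR
    simp only [ES.coe_galF, coeffMap_coeff] at this
    exact this
  rw [h1, map_mul, hr, h2]

/-- (F4)  `x = 0` : `a = 0`, `b = 1`.  Otherwise `S19.Mod.exists_invariant_fraction (A.inertiaSubgroupIn ℚ) x hfix` : `x * Q = P`, `P Q` invariant polynomials, `≠ 0`;
`S19.Mod.exists_scale_pol he hA` for `P` (`k₁, a₀`) and `Q` (`k₂, b`) : `io a₀ = e^k₁ P`, `io b = e^k₂ Q`, `rd a₀ ≠ 0`, `rd b ≠ 0`.  So `x * io b = e^(k₂-k₁) io a₀`.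
`k₂ - k₁ ≥ 0` : otherwise `io a₀ = e^(k₁-k₂) x io b` with `x ∈ GR` (`mem_GR_iff`), `x * io y₂ = io y₁`, gives `io (a₀ y₂) = io (e^(k₁-k₂) y₁ b)`, `rd a₀ * rd y₂ = 0`.
`a := e^(k₂-k₁) a₀`.  The coefficients of `io a`, `io b` are fixed: they are rational multiples of those of `P`, `Q` (`ES.coe_galF`, `coeffMap_coeff`, `S24.Gen.coeff_algebraMap_mul`). -/
theorem exists_fix_fraction_series {N : ℕ} [NeZero N] (he : e.Prime) (hA : A.LiesOverPrime e)
    (x : FF N) (hx : x ∈ (gaussVFF N A).O) (hfix : ∀ σ ∈ A.inertiaSubgroupIn ℚ, galF N σ x = x) :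
    ∃ a b : LaurentSeries A, rd A b ≠ 0 ∧ (x : LaurentSeries Qb) * io A b = io A a ∧
      (∀ n, ∀ σ ∈ A.inertiaSubgroupIn ℚ, σ (a.coeff n : Qb) = (a.coeff n : Qb)) ∧
      (∀ n, ∀ σ ∈ A.inertiaSubgroupIn ℚ, σ (b.coeff n : Qb) = (b.coeff n : Qb)) := by
  have he0 : (e : Qb) ≠ 0 := by exact_mod_cast he.ne_zero
  by_cases hx0 : x = 0
  · refine ⟨0, 1, by rw [map_one]; exact one_ne_zero, by rw [hx0, map_zero]; simp, ?_, ?_⟩
    · intro n σ _
      simp
    · intro n σ _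
      rw [HahnSeries.coeff_one]
      split_ifs <;> simp
  obtain ⟨u, y₁, y₂, -, -, hy2, hxy, -⟩ := hx
  obtain ⟨P, Q, hP, hQ, hQ0, hxQ, hPinv, hQinv⟩ :=
    S19.Mod.exists_invariant_fraction (A.inertiaSubgroupIn ℚ) x hfix
  have hP0 : P ≠ 0 := by rw [← hxQ]; exact mul_ne_zero hx0 hQ0
  obtain ⟨k₁, a₀, -, ha0, hioa⟩ := S19.Mod.exists_scale_pol he hA hP hP0 hPinv
  obtain ⟨k₂, b, -, hb0, hiob⟩ := S19.Mod.exists_scale_pol he hA hQ hQ0 hQinv
  have hxQ' : (x : LaurentSeries Qb) * (Q : LaurentSeries Qb) = (P : LaurentSeries Qb) :=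
    congrArg (fun z : FF N => (z : LaurentSeries Qb)) hxQ
  have hσe : ∀ (σ : GQ) (k : ℤ), σ ((e : Qb) ^ k) = (e : Qb) ^ k := by
    intro σ k
    rw [map_zpow₀, map_natCast]
  -- `k₁ ≤ k₂`
  have hk : k₁ ≤ k₂ := by
    by_contra hcon
    push Not at hcon
    obtain ⟨m, hm⟩ : ∃ m : ℕ, k₁ = k₂ + (m + 1 : ℕ) := ⟨(k₁ - k₂ - 1).toNat, by
      have : ((k₁ - k₂ - 1).toNat : ℤ) = k₁ - k₂ - 1 := Int.toNat_of_nonneg (by omega)
      push_cast
      omega⟩
    have h1 : io A (a₀ * y₂) = io A (HahnSeries.single 0 ((e : A) ^ (m + 1)) * (y₁ * b)) := by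
      rw [map_mul, map_mul, map_mul, io_const, hioa, hiob, ← hxy, ← hxQ', hm,
        zpow_add₀ he0, map_mul, zpow_natCast]
      push_cast
      ring
    have h2 := congrArg (rd A) (io_injective h1)
    rw [map_mul, map_mul, rd_const, map_pow, FrobFrac_residue_natCast hA,
      zero_pow (Nat.succ_ne_zero m), map_zero, zero_mul] at h2
    exact mul_ne_zero ha0 hy2 h2
  obtain ⟨d, hd⟩ : ∃ d : ℕ, k₂ = k₁ + (d : ℕ) := ⟨(k₂ - k₁).toNat, by
    have : ((k₂ - k₁).toNat : ℤ) = k₂ - k₁ := Int.toNat_of_nonneg (by omega)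
    omega⟩
  have hioa' : io A (HahnSeries.single 0 ((e : A) ^ d) * a₀) =
      algebraMap Qb (LaurentSeries Qb) ((e : Qb) ^ k₂) * (P : LaurentSeries Qb) := by
    rw [map_mul, io_const, hioa, hd, zpow_add₀ he0, map_mul, zpow_natCast]
    push_cast
    ring
  refine ⟨HahnSeries.single 0 ((e : A) ^ d) * a₀, b, hb0, ?_, ?_, ?_⟩
  · rw [hioa', hiob, ← hxQ']
    ring
  · intro n σ hσ
    exact FrobFrac_coeff_fixed _ _ P σ (hσe σ k₂) (hPinv σ hσ) hioa' n
  · intro n σ hσ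
    exact FrobFrac_coeff_fixed _ _ Q σ (hσe σ k₂) (hQinv σ hσ) hiob n

end

end Fermat.Agent.S15.B.Raise
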