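import Fermat.Agent.S15.B.Raise.FrobSeries
import Fermat.Agent.S15.B.Raise.FrobFrac

/-!
# S15 / B / Raise / FrobFix  (see the header of `FrobConst.lean`)
-/

set_option autoImplicit false

open AlgebraicCurve ModularCurve

namespace Fermat.Agent.S15.B.Raise

open Fermat.Agent.ES (Qb FF GQ galF Vq normSer heckeSer twist)
open Fermat.Agent.S37.Mod
open Fermat.Agent

noncomputable section

variable {A : ValuationSubring Qb} {e : ℕ}

/-! ### TASK S15/B-Raise-F4 : the congruence for fixed functions -/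

/-- the decomposition group preserves `O` (`mem_GR_iff`, `gal_mem_GR`, `ES.coe_galF`). -/
theorem galF_mem_O {N : ℕ} [NeZero N] {g : GQ} (hg : g ∈ A.decompositionSubgroup ℚ) {x : FF N}
    (hx : x ∈ (gaussVFF N A).O) : galF N g x ∈ (gaussVFF N A).O := by
  rw [← mem_GR_iff] at hx ⊢
  rw [ES.coe_galF]
  exact gal_mem_GR hg hx

/-- (F5)  `x * io b = io a` as in (F4).  `X := Vq x`, `Y := φ⁻¹ x` (coefficientwise), `a₁ := φ⁻¹ (io a)`, `b₁ := φ⁻¹ (io b)`; `Y * b₁ = a₁`, `X * Vq (io b) = Vq (io a)`,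
`Vq (io a) = a₁^e + e z_a`, `Vq (io b) = b₁^e + e z_b` (F3).  Hence `(X - Y^e) * b₁^e = e (z_a - X z_b)`, and `z := (z_a - X z_b) * (b₁⁻¹)^e ∈ GR` :
`X ∈ GR` (`Vq_mem_GR`, `mem_GR_iff`), `b₁ = io (coeffMap (galA φ⁻¹) b)`, `b₁⁻¹ ∈ GR` (`gal_mem_GR` applied to `(io b)⁻¹`, `inv_io_mem_GR`, `map_inv₀`). -/
theorem exists_Vq_congr_fix {N : ℕ} [NeZero N] [NeZero e] (he : e.Prime) (hA : A.LiesOverPrime e)
    {φ : GQ} (hφ : A.IsFrobeniusAt φ e) (x : FF N) (hx : x ∈ (gaussVFF N A).O)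
    (hfix : ∀ σ ∈ A.inertiaSubgroupIn ℚ, galF N σ x = x) :
    ∃ z ∈ GR A, Vq Qb e (x : LaurentSeries Qb)
      = ((galF N φ⁻¹ x : FF N) : LaurentSeries Qb) ^ e + cs (e : Qb) * z := by
  obtain ⟨a, b, hb, hxab, hafix, hbfix⟩ := exists_fix_fraction_series he hA x hx hfix
  obtain ⟨za, hza⟩ := exists_Vq_congr_series he hA hφ a hafix
  obtain ⟨zb, hzb⟩ := exists_Vq_congr_series he hA hφ b hbfix
  have hφd : φ⁻¹ ∈ A.decompositionSubgroup ℚ := inv_mem hφ.mem_decompositionSubgroup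
  have hxGR : (x : LaurentSeries Qb) ∈ GR A := (mem_GR_iff x).2 hx
  rw [ES.coe_galF]
  have hcs : cs (e : Qb) = (e : LaurentSeries Qb) := map_natCast _ e
  rw [hcs]
  -- abbreviations
  obtain ⟨ψ, hψ⟩ : ∃ ψ : LaurentSeries Qb →+* LaurentSeries Qb,
      ψ = coeffMap ((φ⁻¹ : GQ) : Qb →+* Qb) := ⟨_, rfl⟩
  rw [← hψ] at hza hzb ⊢
  have h1 : Vq Qb e (x : LaurentSeries Qb) * Vq Qb e (io A b) = Vq Qb e (io A a) := by
    rw [← map_mul, hxab]
  have h2 : ψ (x : LaurentSeries Qb) * ψ (io A b) = ψ (io A a) := by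
    rw [← map_mul, hxab]
  have hiob : io A b ≠ 0 := by
    intro h0
    apply hb
    have : b = 0 := io_injective (A := A) (by rw [h0, map_zero])
    rw [this, map_zero]
  have hb₁0 : ψ (io A b) ≠ 0 := by
    rw [Ne, map_eq_zero]; exact hiob
  have hinv : (ψ (io A b))⁻¹ ∈ GR A := by
    rw [← map_inv₀, hψ]
    exact gal_mem_GR hφd (inv_io_mem_GR hb)
  have hXGR : Vq Qb e (x : LaurentSeries Qb) ∈ GR A := Vq_mem_GR e hxGR
  refine ⟨(io A za - Vq Qb e (x : LaurentSeries Qb) * io A zb) * ((ψ (io A b))⁻¹) ^ e,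
    (GR A).mul_mem ((GR A).sub_mem (io_mem_GR za) ((GR A).mul_mem hXGR (io_mem_GR zb)))
      ((GR A).pow_mem hinv e), ?_⟩
  have h3 : ψ (x : LaurentSeries Qb) ^ e * ψ (io A b) ^ e = ψ (io A a) ^ e := by
    rw [← mul_pow, h2]
  have key : (Vq Qb e (x : LaurentSeries Qb) - ψ (x : LaurentSeries Qb) ^ e) * ψ (io A b) ^ e
      = (e : LaurentSeries Qb) * (io A za - Vq Qb e (x : LaurentSeries Qb) * io A zb) := by
    linear_combination h1 + hza - Vq Qb e (x : LaurentSeries Qb) * hzb - h3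
  have hb1 : ψ (io A b) ^ e * ((ψ (io A b))⁻¹) ^ e = 1 := by
    rw [← mul_pow, mul_inv_cancel₀ hb₁0, one_pow]
  linear_combination (-(Vq Qb e (x : LaurentSeries Qb) - ψ (x : LaurentSeries Qb) ^ e)) * hb1
    + ((ψ (io A b))⁻¹) ^ e * key

end

end Fermat.Agent.S15.B.Raise
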