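import Fermat.Agent.S15.B.Raise.FrobConst

/-!
# S15 / B / Raise / FrobSeries  (see the header of `FrobConst.lean`)
-/

set_option autoImplicit false

open AlgebraicCurve ModularCurve

namespace Fermat.Agent.S15.B.Raise

open Fermat.Agent.ES (Qb FF GQ galF Vq normSer heckeSer twist)
open Fermat.Agent.S37.Mod
open Fermat.Agent

noncomputable section

variable {A : ValuationSubring Qb} {e : ℕ}

/-! ### TASK S15/B-Raise-F2 : integral series -/

/-- coefficients of `e * z`. -/
theorem FrobSeries_coeff_natCast_mul {R : Type*} [CommRing R] (m : ℕ) (z : LaurentSeries R)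
    (n : ℤ) : ((m : LaurentSeries R) * z).coeff n = (m : R) * z.coeff n := by
  rw [← map_natCast (HahnSeries.C : R →+* LaurentSeries R) m, HahnSeries.C_apply,
    HahnSeries.coeff_single_zero_mul]

/-- an integral series all of whose coefficients are divisible by `e` is `e * (integral series)` (choose the quotients, `0` for `0`; as `S33.Calc.exists_C_mul`). -/
theorem exists_eq_natCast_mul_series (he : e.Prime) (y : LaurentSeries A)
    (h : ∀ n, ∃ b : A, y.coeff n = (e : A) * b) : ∃ z : LaurentSeries A, y = (e : LaurentSeries A) * z := by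
  classical
  choose t ht using h
  let z : LaurentSeries A :=
    { coeff := fun n => if y.coeff n = 0 then 0 else t n
      isPWO_support' := y.isPWO_support.mono fun n hn => by
        simp only [Function.mem_support, ne_eq] at hn
        rw [HahnSeries.mem_support]
        intro h0
        exact hn (if_pos h0) }
  refine ⟨z, ?_⟩
  ext n : 2
  rw [FrobSeries_coeff_natCast_mul]
  change y.coeff n = (e : A) * (if y.coeff n = 0 then 0 else t n)
  split_ifs with h0
  · rw [h0, mul_zero]
  · exact ht n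

/-- **freshman's dream for series** : `y^e ≡ ∑ y_n^e q^{en}  mod e A((q))`.
Let `R := A ⧸ Ideal.span {(e : A)}`, of characteristic `e` (`CharP R e`: `(e : R) = 0` and `R` is nontrivial as `e ∈ m_A`; `CharP.charP_iff_prime_eq_zero`), `π := Ideal.Quotient.mk _`.
`ES.pow_char_eq e (coeffMap π y) : (coeffMap π y)^e = Vq R e (coeffMap (frobenius R e) (coeffMap π y))`.  Hence every coefficient of `y^e - Vq A e (pw y)` is killed by `π`
(`ES.coeffMap_Vq`), i.e. divisible by `e` (`Ideal.Quotient.eq_zero_iff_mem`, `Ideal.mem_span_singleton`), where `pw y` is the series with coefficients `y_n^e`. -/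
theorem exists_pow_eq_Vq [NeZero e] (he : e.Prime) (hA : A.LiesOverPrime e) (y y' : LaurentSeries A)
    (h : ∀ n, ∃ b : A, y'.coeff n = y.coeff n ^ e + (e : A) * b) :
    ∃ z : LaurentSeries A, Vq A e y' = y ^ e + (e : LaurentSeries A) * z := by
  have : Fact e.Prime := ⟨he⟩
  have hnu : ((e : ℕ) : A) ∈ nonunits A := by
    have h1 : (((e : ℕ) : A) : Qb) ∈ A.nonunits := by
      have : (((e : ℕ) : A) : Qb) = (e : Qb) := by simp
      rw [this]; exact hA
    have h2 : ((e : ℕ) : A) ∈ IsLocalRing.maximalIdeal A :=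
      ValuationSubring.coe_mem_nonunits_iff.mp h1
    exact (IsLocalRing.mem_maximalIdeal _).1 h2
  have hchar : CharP (A ⧸ (Ideal.span ({((e : ℕ) : A)} : Set A) : Ideal A)) e :=
    CharP.quotient A e hnu
  set π : A →+* A ⧸ (Ideal.span ({((e : ℕ) : A)} : Set A) : Ideal A) := Ideal.Quotient.mk _
    with hπ
  have hπe : π ((e : ℕ) : A) = 0 :=
    Ideal.Quotient.eq_zero_iff_mem.2 (Ideal.subset_span (Set.mem_singleton _))
  have hy' : coeffMap π y' = coeffMap (frobenius _ e) (coeffMap π y) := by
    ext n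
    obtain ⟨b, hb⟩ := h n
    rw [coeffMap_coeff, coeffMap_coeff, coeffMap_coeff, hb, map_add, map_mul, hπe, zero_mul,
      add_zero, map_pow, frobenius_def]
  have hzero : coeffMap π (Vq A e y' - y ^ e) = 0 := by
    rw [map_sub, ES.coeffMap_Vq, map_pow, ES.pow_char_eq e (coeffMap π y), hy', sub_self]
  obtain ⟨z, hz⟩ := exists_eq_natCast_mul_series he (Vq A e y' - y ^ e) (by
    intro n
    have h1 := congrArg (fun s => s.coeff n) hzero
    simp only [coeffMap_coeff, HahnSeries.coeff_zero] at h1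
    rw [hπ, Ideal.Quotient.eq_zero_iff_mem, Ideal.mem_span_singleton] at h1
    exact h1)
  exact ⟨z, by rw [← hz]; ring⟩

/-- (F3)  apply `exists_pow_eq_Vq` to `y := coeffMap (ES.galA ⟨φ⁻¹, _⟩) a`, `y' := a` and (F2); then apply `io A` (`ES.coeffMap_Vq`, `ES.coeffMap_subtype_galA`, `map_natCast`). -/
theorem exists_Vq_congr_series [NeZero e] (he : e.Prime) (hA : A.LiesOverPrime e) {φ : GQ}
    (hφ : A.IsFrobeniusAt φ e) (a : LaurentSeries A)
    (hfix : ∀ n, ∀ σ ∈ A.inertiaSubgroupIn ℚ, σ (a.coeff n : Qb) = (a.coeff n : Qb)) :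
    ∃ z : LaurentSeries A,
      Vq Qb e (io A a) = (coeffMap ((φ⁻¹ : GQ) : Qb →+* Qb) (io A a)) ^ e
        + (e : LaurentSeries Qb) * io A z := by
  have hφd : φ⁻¹ ∈ A.decompositionSubgroup ℚ :=
    (A.decompositionSubgroup ℚ).inv_mem hφ.mem_decompositionSubgroup
  obtain ⟨z, hz⟩ := exists_pow_eq_Vq he hA (coeffMap (ES.galA ⟨φ⁻¹, hφd⟩) a) a (by
    intro n
    obtain ⟨b, hb, hab⟩ := exists_frob_congr he hA hφ (a.coeff n).2 (hfix n)
    refine ⟨⟨b, hb⟩, Subtype.ext ?_⟩
    rw [coeffMap_coeff]
    push_cast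
    rw [ES.coe_galA]
    exact hab)
  refine ⟨z, ?_⟩
  have h1 := congrArg (io A) hz
  rw [ES.coeffMap_Vq, map_add, map_pow, map_mul, map_natCast, ES.coeffMap_subtype_galA] at h1
  exact h1

end

end Fermat.Agent.S15.B.Raise
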