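import Fermat.Agent.S19.Mod.Base
import Fermat.Agent.S33.Calc.Norm
import Fermat.Agent.S33.Calc.NormRed
import Fermat.Agent.ES.B.Module

/-!
# S15 / B / Raise / Gauss : the big Gauss ring `GR A ⊆ ℚ̄((q))`

WARNING.  An element of the Gauss valuation ring `(gaussVFF N A).O` of `FF N` need NOT have an `A`-integral `q`-expansion (e.g. `1 / (ϖ + j⁻¹)`): it is only a
QUOTIENT `io a / io b` of integral series with `rd b ≠ 0`.  So all congruences of (Raise) are congruences in the ring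
`GR A := { x ∈ ℚ̄((q)) | ∃ y₁ y₂ ∈ A((q)), rd y₂ ≠ 0, x * io y₂ = io y₁ }`  (numerator and denominator are ARBITRARY integral series, not nec. in `FF N`).
`mem_GR_iff : (f : ℚ̄((q))) ∈ GR A ↔ f ∈ (gaussVFF N A).O` for `f : FF N`.

`cs c` is the constant series.  `U1 A δ w` : `w ∈ 1 + δ GR`.
-/

set_option autoImplicit false

open AlgebraicCurve ModularCurve

namespace Fermat.Agent.S15.B.Raise

open Fermat.Agent.ES (Qb FF GQ galF Vq normSer heckeSer twist)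
open Fermat.Agent.S37.Mod
open Fermat.Agent

noncomputable section

/-- constants in `ℚ̄((q))`. -/
abbrev cs (c : Qb) : LaurentSeries Qb := algebraMap Qb (LaurentSeries Qb) c

variable {A : ValuationSubring Qb}

/-! ### TASK S15/B-Raise-G1 : the ring `GR A` (formal; copy the proofs of `S37.Mod.RedRel.add/mul/neg`, dropping `IsI` and the reductions). -/

/-- membership predicate of the big Gauss ring. -/
def IsGR (A : ValuationSubring Qb) (x : LaurentSeries Qb) : Prop :=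
  ∃ y₁ y₂ : LaurentSeries A, rd A y₂ ≠ 0 ∧ x * io A y₂ = io A y₁

theorem IsGR.add {x x' : LaurentSeries Qb} (h : IsGR A x) (h' : IsGR A x') : IsGR A (x + x') := by
  obtain ⟨y₁, y₂, h0, h1⟩ := h
  obtain ⟨z₁, z₂, k0, k1⟩ := h'
  refine ⟨y₁ * z₂ + z₁ * y₂, y₂ * z₂, ?_, ?_⟩
  · rw [map_mul]; exact mul_ne_zero h0 k0
  · rw [map_add, map_mul, map_mul, map_mul, ← h1, ← k1]; ring

theorem IsGR.mul {x x' : LaurentSeries Qb} (h : IsGR A x) (h' : IsGR A x') : IsGR A (x * x') := by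
  obtain ⟨y₁, y₂, h0, h1⟩ := h
  obtain ⟨z₁, z₂, k0, k1⟩ := h'
  refine ⟨y₁ * z₁, y₂ * z₂, ?_, ?_⟩
  · rw [map_mul]; exact mul_ne_zero h0 k0
  · rw [map_mul, map_mul, ← h1, ← k1]; ring

theorem IsGR.neg {x : LaurentSeries Qb} (h : IsGR A x) : IsGR A (-x) := by
  obtain ⟨y₁, y₂, h0, h1⟩ := h
  refine ⟨-y₁, y₂, h0, ?_⟩
  rw [map_neg, ← h1]; ring

theorem IsGR.io (y : LaurentSeries A) : IsGR A (io A y) := by
  refine ⟨y, 1, ?_, ?_⟩
  · rw [map_one]; exact one_ne_zero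
  · rw [map_one, mul_one]

/-- The big Gauss ring. -/
def GR (A : ValuationSubring Qb) : Subring (LaurentSeries Qb) where
  carrier := {x | IsGR A x}
  mul_mem' := fun h h' => h.mul h'
  one_mem' := by simpa using IsGR.io (A := A) 1
  add_mem' := fun h h' => h.add h'
  zero_mem' := by simpa using IsGR.io (A := A) 0
  neg_mem' := fun h => h.neg

theorem mem_GR {x : LaurentSeries Qb} :
    x ∈ GR A ↔ ∃ y₁ y₂ : LaurentSeries A, rd A y₂ ≠ 0 ∧ x * io A y₂ = io A y₁ := Iff.rfl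

theorem io_mem_GR (y : LaurentSeries A) : io A y ∈ GR A := IsGR.io y

/-- `S37.Mod.io_const`. -/
theorem cs_mem_GR {c : Qb} (hc : c ∈ A) : cs c ∈ GR A := by
  have h := io_mem_GR (A := A) (HahnSeries.single 0 (⟨c, hc⟩ : A))
  rwa [io_const] at h

theorem natCast_mem_GR (n : ℕ) : (n : LaurentSeries Qb) ∈ GR A := natCast_mem _ n

/-- `y₁ ↦ Vq y₁`, `y₂ ↦ Vq y₂` (as `SS.RedTo.vq`: `ES.coeffMap_Vq`, `ES.Vq_injective`). -/
theorem Vq_mem_GR (ℓ : ℕ) [NeZero ℓ] {x : LaurentSeries Qb} (h : x ∈ GR A) : Vq Qb ℓ x ∈ GR A := by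
  obtain ⟨y₁, y₂, h0, h1⟩ := h
  refine ⟨Vq A ℓ y₁, Vq A ℓ y₂, ?_, ?_⟩
  · rw [ES.coeffMap_Vq]
    intro h
    exact h0 (ES.Vq_injective ℓ (by rw [h, map_zero]))
  · rw [ES.coeffMap_Vq, ES.coeffMap_Vq, ← map_mul, h1]

/-- (helper) an integral series with nonzero reduction is nonzero in `ℚ̄((q))`. -/
theorem Gauss_io_ne_zero {y : LaurentSeries A} (hy : rd A y ≠ 0) : io A y ≠ 0 := by
  intro h
  have h1 : y = 0 := io_injective (by rw [h, map_zero])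
  exact hy (by rw [h1, map_zero])

/-- (helper) `1 + ϖ x = (y₂ + ϖ y₁) / y₂`. -/
theorem Gauss_one_add {ϖ : Qb} (hϖ : ϖ ∈ A.nonunits) {x : LaurentSeries Qb} (h : x ∈ GR A) :
    ∃ y₂ w : LaurentSeries A, rd A y₂ ≠ 0 ∧ rd A w ≠ 0 ∧ (1 + cs ϖ * x) * io A y₂ = io A w := by
  obtain ⟨y₁, y₂, h0, h1⟩ := h
  obtain ⟨hϖA, hϖm⟩ := ValuationSubring.mem_nonunits_iff_exists_mem_maximalIdeal.1 hϖ
  refine ⟨y₂, y₂ + HahnSeries.single 0 (⟨ϖ, hϖA⟩ : A) * y₁, h0, ?_, ?_⟩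
  · rw [map_add, map_mul, rd_const, (IsLocalRing.residue_eq_zero_iff _).2 hϖm, map_zero, zero_mul,
      add_zero]
    exact h0
  · rw [map_add, map_mul, io_const, ← h1]
    ring

/-- an integral series with nonzero reduction is a unit of `GR A` (swap). -/
theorem inv_io_mem_GR {y : LaurentSeries A} (hy : rd A y ≠ 0) : (io A y)⁻¹ ∈ GR A := by
  refine ⟨1, y, hy, ?_⟩
  rw [map_one, inv_mul_cancel₀ (Gauss_io_ne_zero hy)]

/-- `x = y₁ / y₂`, `1 + ϖ x = (y₂ + ϖ y₁) / y₂` and `rd (y₂ + ϖ y₁) = rd y₂ ≠ 0`. -/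
theorem inv_one_add_mem_GR {ϖ : Qb} (hϖ : ϖ ∈ A.nonunits) {x : LaurentSeries Qb} (h : x ∈ GR A) :
    (1 + cs ϖ * x)⁻¹ ∈ GR A := by
  obtain ⟨y₂, w, h0, hw, he⟩ := Gauss_one_add hϖ h
  have hne : 1 + cs ϖ * x ≠ 0 := by
    intro h1
    rw [h1, zero_mul] at he
    exact Gauss_io_ne_zero hw he.symm
  refine ⟨y₂, w, hw, ?_⟩
  rw [← he, inv_mul_cancel_left₀ hne]

theorem one_add_ne_zero {ϖ : Qb} (hϖ : ϖ ∈ A.nonunits) {x : LaurentSeries Qb} (h : x ∈ GR A) :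
    1 + cs ϖ * x ≠ 0 := by
  obtain ⟨y₂, w, h0, hw, he⟩ := Gauss_one_add hϖ h
  intro h1
  rw [h1, zero_mul] at he
  exact Gauss_io_ne_zero hw he.symm

end

end Fermat.Agent.S15.B.Raise
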