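import Fermat.Agent.S15.B.Raise.Gauss

/-!
# S15 / B / Raise / GaussGal : Galois action on `GR A`, comparison with `gaussVFF`
-/

set_option autoImplicit false

open AlgebraicCurve ModularCurve

namespace Fermat.Agent.S15.B.Raise

open Fermat.Agent.ES (Qb FF GQ galF Vq normSer heckeSer twist)
open Fermat.Agent.S37.Mod
open Fermat.Agent

noncomputable section

variable {A : ValuationSubring Qb}

/-! ### TASK S15/B-Raise-G2 : Galois action and comparison with `gaussVFF` -/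

/-- the decomposition group preserves `GR A` (apply `coeffMap (ES.galA g)` to `y₁ y₂`: `ES.coeffMap_subtype_galA`; `rd (coeffMap (galA g) y₂) ≠ 0` because a unit
coefficient of `y₂` is mapped to a unit of `A` (`galA g` has the inverse `galA g⁻¹`), or as in `SS.RedTo.gal`). -/
theorem gal_mem_GR {g : GQ} (hg : g ∈ A.decompositionSubgroup ℚ) {x : LaurentSeries Qb}
    (h : x ∈ GR A) : coeffMap (g : Qb →+* Qb) x ∈ GR A := by
  obtain ⟨y₁, y₂, hy₂, hx⟩ := mem_GR.1 h
  refine mem_GR.2 ⟨coeffMap (ES.galA ⟨g, hg⟩) y₁, coeffMap (ES.galA ⟨g, hg⟩) y₂, ?_, ?_⟩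
  · intro h0
    apply hy₂
    ext n
    rw [coeffMap_coeff, HahnSeries.coeff_zero]
    by_contra hn
    have hu : IsUnit (y₂.coeff n) := (IsLocalRing.residue_ne_zero_iff_isUnit _).1 hn
    have hu' := hu.map (ES.galA ⟨g, hg⟩)
    have h1 := congrArg (fun s => s.coeff n) h0
    simp only [coeffMap_coeff, HahnSeries.coeff_zero] at h1
    exact (IsLocalRing.residue_ne_zero_iff_isUnit _).2 hu' h1
  · rw [ES.coeffMap_subtype_galA, ES.coeffMap_subtype_galA, ← hx, map_mul]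

/-- an element of `A` whose inverse is not in `A` has residue `0`. -/
theorem GaussGal_residue_eq_zero {c : Qb} (hc : c ∈ A) (hc' : c⁻¹ ∉ A) :
    IsLocalRing.residue A ⟨c, hc⟩ = 0 := by
  rw [IsLocalRing.residue_eq_zero_iff, IsLocalRing.mem_maximalIdeal, mem_nonunits_iff]
  intro hu
  obtain ⟨v, hv⟩ := hu
  apply hc'
  have h1 : c * (((v⁻¹ : Aˣ) : A) : Qb) = 1 := by
    have h2 : ((v : A) : Qb) = c := by rw [hv]
    rw [← h2]
    exact_mod_cast congrArg Subtype.val v.mul_inv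
  rw [inv_eq_of_mul_eq_one_right h1]
  exact Subtype.property _

/-- **Comparison.**  `←` : `RedRel` is a special case.  `→` : `f = 0` trivial; otherwise `S37.Mod.exists_redRel_scale` gives `c ≠ 0`, `RedRel (c f) u`, `u ≠ 0`, i.e.
`c f * io b₀ = io a₀` with `rd a₀ ≠ 0`, `rd b₀ ≠ 0`.  If `c⁻¹ ∈ A` then `f = c⁻¹ (c f) ∈ O`.  Otherwise `c ∈ m_A` and from `f * io y₂ = io y₁`:
`io (a₀ y₂) = c f io b₀ io y₂ = io (c y₁ b₀)`, so `rd a₀ * rd y₂ = rd (c y₁ b₀) = 0` (`io_injective`, `rd_const`), contradiction (`k((q))` is a domain). -/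
theorem mem_GR_iff {N : ℕ} [NeZero N] (f : FF N) :
    (f : LaurentSeries Qb) ∈ GR A ↔ f ∈ (gaussVFF N A).O := by
  constructor
  · intro h
    obtain ⟨y₁, y₂, hy₂, hx⟩ := mem_GR.1 h
    by_cases hf : f = 0
    · rw [hf]
      exact zero_mem _
    obtain ⟨c, u, hc, hu, hr⟩ := exists_redRel_scale (A := A) f hf
    have hcL : algebraMap Qb (LaurentSeries Qb) c ≠ 0 := (map_ne_zero _).2 hc
    by_cases hcA : c⁻¹ ∈ A
    · have h1 := (RedRel.const (M := N) (⟨c⁻¹, hcA⟩ : A)).mul hr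
      rw [show ((⟨c⁻¹, hcA⟩ : A) : Qb) = c⁻¹ from rfl, map_inv₀, inv_mul_cancel_left₀ hcL] at h1
      exact ⟨_, h1⟩
    · exfalso
      have hcA' : c ∈ A := (A.mem_or_inv_mem c).resolve_right hcA
      obtain ⟨a₀, b₀, -, -, hb₀, hf₀, hu₀⟩ := hr
      have hra₀ : rd A a₀ ≠ 0 := by
        rw [← hu₀]
        exact mul_ne_zero hu hb₀
      have h1 : io A (a₀ * y₂) = io A (HahnSeries.single 0 (⟨c, hcA'⟩ : A) * y₁ * b₀) := by
        rw [map_mul, map_mul, map_mul, io_const, ← hf₀, ← hx]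
        ring
      have h2 := congrArg (rd A) (io_injective h1)
      rw [map_mul, map_mul, map_mul, rd_const, GaussGal_residue_eq_zero hcA' hcA, map_zero,
        zero_mul, zero_mul] at h2
      exact mul_ne_zero hra₀ hy₂ h2
  · rintro ⟨u, a, b, -, -, hb, hf, -⟩
    exact mem_GR.2 ⟨a, b, hb, hf⟩

end

end Fermat.Agent.S15.B.Raise
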