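import Fermat.Agent.S15.B.Raise.Gauss

/-!
# S15 / B / Raise / GaussNorm : expansion of `normSer e (1 + ϖ x)` in `GR A`
-/

set_option autoImplicit false

open AlgebraicCurve ModularCurve

namespace Fermat.Agent.S15.B.Raise

open Fermat.Agent.ES (Qb FF GQ galF Vq normSer heckeSer twist)
open Fermat.Agent.S37.Mod
open Fermat.Agent

noncomputable section

variable {A : ValuationSubring Qb}

/-! ### TASK S15/B-Raise-G3 : the norm expansion -/

/-- (helper) `io` of a constant. -/
theorem GaussNorm_io_C (c : A) : io A (HahnSeries.C c) = cs (c : Qb) := by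
  rw [HahnSeries.C_apply]
  exact io_const c

/-- (helper) `coeffMap` along an injective map is injective. -/
theorem GaussNorm_coeffMap_ne_zero {R' S' : Type*} [CommRing R'] [CommRing S'] (f : R' →+* S')
    (hf : Function.Injective f) {y : LaurentSeries R'} (hy : y ≠ 0) : coeffMap f y ≠ 0 := by
  intro h
  apply hy
  ext n
  have h1 := congrArg (fun z => z.coeff n) h
  simp only [coeffMap_coeff, HahnSeries.coeff_zero] at h1
  rw [HahnSeries.coeff_zero]
  exact (map_eq_zero_iff f hf).1 h1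

/-- **Expansion of the norm** (copy of `S33.Calc.Red0.normSer_expand`, `S33/Calc/Ops.lean`, with `R = A`, `ι = A.subtype`; all the ingredients
`S33.Calc.normSer_add_mul`, `coeffMap_normSer`, `coeffMap_normSer_of_char` are stated for an arbitrary domain `R` with a primitive `e`-th root of unity;
`ζ ∈ A` : `ES.exists_primitiveRoot_Qb`, `ES.mem_of_pow_eq_one`; `CharP (kA A) e` : `S37.Mod.charP_kA`; `HahnSeries.C c = cs c` : `algebraMap_laurentSeries_eq_single`). -/
theorem normSer_expand {e : ℕ} [NeZero e] (he : e.Prime) (hA : A.LiesOverPrime e) {ϖ : Qb}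
    (hϖ : ϖ ∈ A) {x : LaurentSeries Qb} (h : x ∈ GR A) :
    ∃ x' ∈ GR A, ∃ B ∈ GR A,
      normSer e (1 + cs ϖ * x) = 1 + cs (ϖ ^ e) * x' + cs ((e : Qb) * ϖ) * B := by
  obtain ⟨y₁, y₂, h0, h1⟩ := mem_GR.1 h
  haveI : Fact e.Prime := ⟨he⟩
  haveI : CharP (kA A) e := charP_kA he hA
  obtain ⟨ζK, hζK⟩ := ES.exists_primitiveRoot_Qb e
  have hζA : ζK ∈ A := ES.mem_of_pow_eq_one A (NeZero.ne e) hζK.pow_eq_one
  have hι : Function.Injective A.subtype := Subtype.val_injective
  have hζ : IsPrimitiveRoot (⟨ζK, hζA⟩ : A) e :=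
    IsPrimitiveRoot.of_map_of_injective (f := A.subtype) hζK hι
  obtain ⟨B₀, hB₀⟩ := S33.Calc.normSer_add_mul e he hζ (⟨ϖ, hϖ⟩ : A) y₂ y₁
  have hN₂r : rd A (normSer e y₂) ≠ 0 := by
    rw [S33.Calc.coeffMap_normSer_of_char e (IsLocalRing.residue A) hζ]
    exact GaussNorm_coeffMap_ne_zero _ (frobenius (kA A) e).injective h0
  have hN₂ : normSer e y₂ ≠ 0 := by
    intro h
    rw [h, map_zero] at hN₂r
    exact hN₂r rfl
  have hN₂K : io A (normSer e y₂) ≠ 0 := GaussNorm_coeffMap_ne_zero _ hι hN₂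
  have hmain : normSer e (1 + cs ϖ * x) * io A (normSer e y₂)
      = io A (normSer e y₂) + cs (ϖ ^ e) * io A (normSer e y₁)
        + cs ((e : Qb) * ϖ) * io A B₀ := by
    rw [S33.Calc.coeffMap_normSer e A.subtype hι hζ y₂, ← ES.normSer_mul e hζK]
    have h3 : (1 + cs ϖ * x) * io A y₂
        = io A (y₂ + HahnSeries.C (⟨ϖ, hϖ⟩ : A) * y₁) := by
      rw [map_add, map_mul, GaussNorm_io_C, ← h1]
      ring
    rw [h3, ← S33.Calc.coeffMap_normSer e A.subtype hι hζ, hB₀, map_add, map_add, map_mul, map_mul,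
      map_mul, GaussNorm_io_C, GaussNorm_io_C, map_natCast,
      S33.Calc.coeffMap_normSer e A.subtype hι hζ y₂]
    simp only [cs, map_mul, map_pow, map_natCast, SubmonoidClass.coe_pow]
  refine ⟨io A (normSer e y₁) / io A (normSer e y₂), ?_,
    io A B₀ / io A (normSer e y₂), ?_, ?_⟩
  · exact mem_GR.2 ⟨normSer e y₁, normSer e y₂, hN₂r, div_mul_cancel₀ _ hN₂K⟩
  · exact mem_GR.2 ⟨B₀, normSer e y₂, hN₂r, div_mul_cancel₀ _ hN₂K⟩
  · rw [eq_div_of_mul_eq hN₂K hmain]
    field_simp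

end

end Fermat.Agent.S15.B.Raise
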