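import Fermat.Agent.ES.B.Module
import Fermat.Agent.S37.Mod.VFF
import Fermat.Agent.SS.Formal.RedUp

/-!
# S15 / B / Raise / Iter0 : formal properties of the iterates of `T_e`
-/

set_option autoImplicit false

open AlgebraicCurve ModularCurve

namespace Fermat.Agent.S15.B.Raise

open Fermat.Agent.ES (Qb FF GQ galF Vq normSer heckeSer twist)
open Fermat.Agent.S37.Mod
open Fermat.Agent

noncomputable section

variable {A : ValuationSubring Qb} {e : ℕ} {N : ℕ} [NeZero N]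

/-- constants as units of `FF N`. -/
def cU (N : ℕ) (c : Qb) (hc : c ≠ 0) : (FF N)ˣ :=
  Units.mk0 (algebraMap Qb (FF N) c) ((map_ne_zero _).2 hc)

@[simp]
theorem coe_cU (c : Qb) (hc : c ≠ 0) : ((cU N c hc : (FF N)ˣ) : FF N) = algebraMap Qb (FF N) c := rfl

/-! ### TASK S15/B-Raise-M1 -/

/-- `T` of a constant (`Vq (cs c) = cs c` : `SS.Vq_cst`; `normSer e (cs c) = cs (c^e)` : `ES.Vq_injective`, `ES.Vq_normSer`, `SS.twistProd_cst`). -/
theorem heckeU_cU [NeZero e] (he : e.Prime) (heN : ¬ e ∣ N) (c : Qb) (hc : c ≠ 0) :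
    ES.heckeU N e he heN (cU N c hc) = cU N (c ^ (e + 1)) (pow_ne_zero _ hc) := by
  apply Units.ext
  apply Subtype.ext
  show heckeSer e (SS.cst c) = SS.cst (c ^ (e + 1))
  obtain ⟨ζ, hζ⟩ := ES.exists_primitiveRoot_Qb e
  have h1 : normSer e (SS.cst c) = SS.cst (c ^ e) := by
    apply ES.Vq_injective e
    rw [ES.Vq_normSer e hζ, SS.twistProd_cst, SS.Vq_cst]
  rw [heckeSer, SS.Vq_cst, h1, pow_succ', SS.cst, SS.cst, SS.cst, map_mul]

theorem iterate_heckeU_cU [NeZero e] (he : e.Prime) (heN : ¬ e ∣ N) (c : Qb) (hc : c ≠ 0) (k : ℕ) :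
    ∃ (c' : Qb) (hc' : c' ≠ 0), (ES.heckeU N e he heN)^[k] (cU N c hc) = cU N c' hc' := by
  induction k with
  | zero => exact ⟨c, hc, rfl⟩
  | succ k ih =>
    obtain ⟨c', hc', h⟩ := ih
    refine ⟨c' ^ (e + 1), pow_ne_zero _ hc', ?_⟩
    rw [Function.iterate_succ_apply', h, heckeU_cU]

/-- `ES.galU_heckeU`. -/
theorem iterate_heckeU_fix [NeZero e] (he : e.Prime) (heN : ¬ e ∣ N) {n : (FF N)ˣ}
    (hn : ∀ σ ∈ A.inertiaSubgroupIn ℚ, galF N σ (n : FF N) = n) (k : ℕ) :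
    ∀ σ ∈ A.inertiaSubgroupIn ℚ,
      galF N σ (((ES.heckeU N e he heN)^[k] n : (FF N)ˣ) : FF N)
        = (((ES.heckeU N e he heN)^[k] n : (FF N)ˣ) : FF N) := by
  induction k with
  | zero => exact hn
  | succ k ih =>
    intro σ hσ
    rw [Function.iterate_succ_apply']
    have h1 : ES.galU N σ ((ES.heckeU N e he heN)^[k] n) = (ES.heckeU N e he heN)^[k] n :=
      Units.ext (ih σ hσ)
    have h2 := ES.galU_heckeU N e he heN σ ((ES.heckeU N e he heN)^[k] n)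
    rw [h1] at h2
    exact congrArg Units.val h2

theorem iterate_heckeU_mul [NeZero e] (he : e.Prime) (heN : ¬ e ∣ N) (f g : (FF N)ˣ) (k : ℕ) :
    (ES.heckeU N e he heN)^[k] (f * g)
      = (ES.heckeU N e he heN)^[k] f * (ES.heckeU N e he heN)^[k] g := by
  exact iterate_map_mul _ k f g

theorem iterate_heckeU_pow [NeZero e] (he : e.Prime) (heN : ¬ e ∣ N) (f : (FF N)ˣ) (j k : ℕ) :
    (ES.heckeU N e he heN)^[k] (f ^ j) = ((ES.heckeU N e he heN)^[k] f) ^ j := by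
  exact iterate_map_pow _ k f j

end

end Fermat.Agent.S15.B.Raise
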