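import Fermat.Agent.S15.B.Raise.Step
import Fermat.Agent.S15.B.Raise.Iter0

/-!
# S15 / B / Raise / Iter : iteration of STEP
-/

set_option autoImplicit false

open AlgebraicCurve ModularCurve

namespace Fermat.Agent.S15.B.Raise

open Fermat.Agent.ES (Qb FF GQ galF Vq normSer heckeSer twist)
open Fermat.Agent.S37.Mod
open Fermat.Agent

noncomputable section

variable {A : ValuationSubring Qb} {e : ℕ} {N : ℕ} [NeZero N]

/-! ### TASK S15/B-Raise-M2 -/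

/-- (helper) in a valuation ring one of two elements divides the other. -/
theorem Iter_dvd_total (a b : Qb) :
    (∃ c ∈ A, b = a * c) ∨ (∃ c ∈ A, a = b * c) := by
  by_cases ha0 : a = 0
  · right
    exact ⟨0, A.zero_mem, by rw [ha0, mul_zero]⟩
  by_cases hb0 : b = 0
  · left
    exact ⟨0, A.zero_mem, by rw [hb0, mul_zero]⟩
  rcases A.mem_or_inv_mem (b / a) with h | h
  · left
    exact ⟨b / a, h, by field_simp⟩
  · right
    refine ⟨a / b, ?_, by field_simp⟩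
    rwa [inv_div] at h

/-- (helper) powers of a nonunit are nonunits. -/
theorem Iter_pow_mem_nonunits {a : Qb} (ha : a ∈ A.nonunits) {n : ℕ} (hn : n ≠ 0) :
    a ^ n ∈ A.nonunits := by
  rw [ValuationSubring.mem_nonunits_iff] at ha ⊢
  rw [map_pow]
  exact pow_lt_one₀ zero_le ha hn

/-- **iteration of STEP.**  Induction on `k`.  `k = 0` : `m = 1`, `w' = w`, `U1.mono`.  `k → k+1` (`Function.iterate_succ_apply'`) : let `δ₀ := ϖ^(e^k)` if `ϖ^(e^k) ∣ e` in `A` and `δ₀ := e` otherwise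
(then `e ∣ ϖ^(e^k)`: `A` is a valuation ring, `A.mem_or_inv_mem (ϖ^(e^k) / e)`; treat `ϖ = 0` separately or note that `e / 0 = 0 ∈ A` is harmless).  The induction hypothesis for `δ₀` gives
`T^k w = m₀^e w₀`, `w₀ ∈ 1 + δ₀ GR`, `δ₀ ∈ m_A`; `step` with `(ϖ, δ) := (δ₀, δ)` : `δ ∣ δ₀^e` (`= ϖ^(e^(k+1))`, resp. `e^e`), `δ ∣ e`.  `T^(k+1) w = (T m₀)^e * (m₁^e w₁)`. -/
theorem iterate_step [NeZero e] (he : e.Prime) (heN : ¬ e ∣ N) (hA : A.LiesOverPrime e)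
    {y : FF N} {yt : resF N A} (hG : S19.Geo0.Good (gaussVFF N A) y yt)
    (hR : S19.Geo0.RatStr (S19.Mod.αI N A) (gaussVFF N A) (e : Qb) y)
    {ϖ : Qb} (hϖ : ϖ ∈ A.nonunits) (w : (FF N)ˣ) (hw : U1 A ϖ ((w : FF N) : LaurentSeries Qb))
    (k : ℕ) {δ : Qb} (hδ : δ ∈ A) (h1 : ∃ b ∈ A, ϖ ^ (e ^ k) = δ * b)
    (h2 : ∃ b ∈ A, (e : Qb) = δ * b) :
    ∃ m w' : (FF N)ˣ, (ES.heckeU N e he heN)^[k] w = m ^ e * w' ∧
      U1 A δ ((w' : FF N) : LaurentSeries Qb) := by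
  induction k generalizing δ with
  | zero =>
    refine ⟨1, w, by simp, ?_⟩
    rw [pow_zero, pow_one] at h1
    exact hw.mono h1
  | succ k ih =>
    have heA : (e : Qb) ∈ A := A.nonunits_subset hA
    have hϖA : ϖ ∈ A := A.nonunits_subset hϖ
    have hpk : ϖ ^ (e ^ k) ∈ A.nonunits :=
      Iter_pow_mem_nonunits hϖ (pow_ne_zero _ he.ne_zero)
    -- the common divisor `δ₀`
    obtain ⟨δ₀, hδ₀, hd1, hd2, hd3⟩ : ∃ δ₀ : Qb, δ₀ ∈ A.nonunits ∧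
        (∃ b ∈ A, ϖ ^ (e ^ k) = δ₀ * b) ∧ (∃ b ∈ A, (e : Qb) = δ₀ * b) ∧
        (∃ b ∈ A, δ₀ ^ e = δ * b) := by
      rcases Iter_dvd_total (A := A) (ϖ ^ (e ^ k)) (e : Qb) with h | h
      · refine ⟨ϖ ^ (e ^ k), hpk, ⟨1, A.one_mem, (mul_one _).symm⟩, h, ?_⟩
        rw [← pow_mul, ← pow_succ]
        exact h1
      · refine ⟨(e : Qb), hA, h, ⟨1, A.one_mem, (mul_one _).symm⟩, ?_⟩
        obtain ⟨b, hb, hbe⟩ := h2
        refine ⟨b * (e : Qb) ^ (e - 1), A.mul_mem _ _ hb (A.pow_mem heA _), ?_⟩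
        rw [← mul_assoc, ← hbe]
        exact (mul_pow_sub_one he.ne_zero _).symm
    obtain ⟨m₀, w₀, hT, hw₀⟩ := ih (A.nonunits_subset hδ₀) hd1 hd2
    obtain ⟨m₁, w₁, hT₁, hw₁⟩ := step he heN hA hG hR hδ₀ hδ hd3 h2 w₀ hw₀
    refine ⟨ES.heckeU N e he heN m₀ * m₁, w₁, ?_, hw₁⟩
    rw [Function.iterate_succ_apply', hT, map_mul, map_pow, hT₁, mul_pow, mul_assoc]

/-- `hR.nilp ϖ hϖ` : `ϖ^n = e b`; `k₀ := n` (`n ≤ e^k` for `k ≥ n` : `Nat.lt_pow_self`, `Nat.pow_le_pow_right`); `iterate_step` with `δ = e`; `U1.exists_O`. -/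
theorem raise_U1 [NeZero e] (he : e.Prime) (heN : ¬ e ∣ N) (hA : A.LiesOverPrime e)
    {y : FF N} {yt : resF N A} (hG : S19.Geo0.Good (gaussVFF N A) y yt)
    (hR : S19.Geo0.RatStr (S19.Mod.αI N A) (gaussVFF N A) (e : Qb) y)
    {ϖ : Qb} (hϖ : ϖ ∈ A.nonunits) (w : (FF N)ˣ) (hw : U1 A ϖ ((w : FF N) : LaurentSeries Qb)) :
    ∃ k₀ : ℕ, ∀ k ≥ k₀, ∃ (m : (FF N)ˣ) (x : FF N), x ∈ (gaussVFF N A).O ∧
      (((ES.heckeU N e he heN)^[k] w : (FF N)ˣ) : FF N)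
        = (m : FF N) ^ e * (1 + algebraMap Qb (FF N) (e : Qb) * x) := by
  obtain ⟨n, b, hb, hn⟩ := hR.nilp ϖ hϖ
  have heA : (e : Qb) ∈ A := A.nonunits_subset hA
  have hϖA : ϖ ∈ A := A.nonunits_subset hϖ
  refine ⟨n, fun k hk => ?_⟩
  have hle : n ≤ e ^ k :=
    (Nat.lt_pow_self he.one_lt).le.trans (Nat.pow_le_pow_right he.pos hk)
  obtain ⟨j, hj⟩ := Nat.exists_eq_add_of_le hle
  obtain ⟨m, w', hT, hw'⟩ := iterate_step he heN hA hG hR hϖ w hw k heA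
    ⟨b * ϖ ^ j, A.mul_mem _ _ hb (A.pow_mem hϖA _), by rw [hj, pow_add, hn]; ring⟩
    ⟨1, A.one_mem, (mul_one _).symm⟩
  obtain ⟨x, hx, hwx⟩ := hw'.exists_O
  refine ⟨m, x, hx, ?_⟩
  rw [hT, Units.val_mul, Units.val_pow_eq_pow_val, hwx]

end

end Fermat.Agent.S15.B.Raise
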