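import Fermat.Agent.S15.B.Raise.FrobFix
import Fermat.Agent.S15.B.Raise.Decomp
import Fermat.Agent.S15.B.Raise.Dream
import Fermat.Agent.S36.Base.Tame
import Fermat.Agent.SS.Formal.RedUp

/-!
# S15 / B / Raise / Lift : `x(q^e) ≡ κ^e mod e` with `κ ∈ O` for EVERY `x ∈ O`
-/

set_option autoImplicit false

open AlgebraicCurve ModularCurve

namespace Fermat.Agent.S15.B.Raise

open Fermat.Agent.ES (Qb FF GQ galF Vq normSer heckeSer twist)
open Fermat.Agent.S37.Mod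
open Fermat.Agent

noncomputable section

variable {A : ValuationSubring Qb} {e : ℕ}

/-! ### TASK S15/B-Raise-L2 -/

/-- **the Frobenius lift.**  `φ` a Frobenius at `A` (`S54.exists_isFrobeniusAt e he A hA`).  `x = ∑ c i • u i`, `c i ∈ A`, `u i ∈ O` fixed (`exists_fix_decomp hG hR hx`; `S19.Mod.fixF_iff`).
`d i ^ e = c i` (`IsAlgClosed.exists_pow_nat_eq`), `d i ∈ A` (`S36.Base.mem_of_pow_mem`).  `κ := ∑ d i • galF N φ⁻¹ (u i) ∈ O` (`galF_mem_O`, `hφ.mem_decompositionSubgroup`, `inv_mem`).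
`Vq x = ∑ cs (c i) * Vq (u i)` (`SS.Vq_cst` or `qExpand` of a constant; the coercion `FF N → ℚ̄((q))` is a ring hom, `Algebra.smul_def`) `= ∑ (cs (d i) * φ⁻¹ u i)^e + e ∑ cs (c i) z i`
(`exists_Vq_congr_fix`) and `κ^e = ∑ (cs (d i) * φ⁻¹ u i)^e + e r` (`exists_sum_pow_eq_GR`). -/
theorem exists_kappa {N : ℕ} [NeZero N] [NeZero e] (he : e.Prime) (hA : A.LiesOverPrime e)
    {y : FF N} {yt : resF N A} (hG : S19.Geo0.Good (gaussVFF N A) y yt)
    (hR : S19.Geo0.RatStr (S19.Mod.αI N A) (gaussVFF N A) (e : Qb) y)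
    (x : FF N) (hx : x ∈ (gaussVFF N A).O) :
    ∃ κ : FF N, κ ∈ (gaussVFF N A).O ∧ ∃ z ∈ GR A,
      Vq Qb e (x : LaurentSeries Qb) = (κ : LaurentSeries Qb) ^ e + cs (e : Qb) * z := by
  obtain ⟨φ, hφ⟩ := S54.exists_isFrobeniusAt e he A hA
  obtain ⟨n, c, u, hc, hfix, huO, hxe⟩ := exists_fix_decomp hG hR hx
  have hd : ∀ i, ∃ d : Qb, d ^ e = c i := fun i => IsAlgClosed.exists_pow_nat_eq (c i) he.pos
  choose d hd using hd
  have hdA : ∀ i, d i ∈ A := fun i =>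
    S36.Base.mem_of_pow_mem he.ne_zero (by rw [hd]; exact hc i)
  have hφi : φ⁻¹ ∈ A.decompositionSubgroup ℚ := inv_mem hφ.mem_decompositionSubgroup
  have hz : ∀ i, ∃ z ∈ GR A, Vq Qb e (u i : LaurentSeries Qb)
      = ((galF N φ⁻¹ (u i) : FF N) : LaurentSeries Qb) ^ e + cs (e : Qb) * z := fun i =>
    exists_Vq_congr_fix he hA hφ (u i) (huO i) (S19.Mod.fixF_iff.1 (hfix i))
  choose z hzG hz using hz
  let t : Fin n → LaurentSeries Qb := fun i =>
    cs (d i) * ((galF N φ⁻¹ (u i) : FF N) : LaurentSeries Qb)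
  have ht : ∀ i, t i ∈ GR A := fun i =>
    (GR A).mul_mem (cs_mem_GR (hdA i)) ((mem_GR_iff _).2 (galF_mem_O hφi (huO i)))
  obtain ⟨r, hr, hsum⟩ := exists_sum_pow_eq_GR he t ht
  have hcoe : ∀ (a : Fin n → Qb) (v : Fin n → FF N),
      ((∑ i, a i • v i : FF N) : LaurentSeries Qb) = ∑ i, cs (a i) * (v i : LaurentSeries Qb) := by
    intro a v
    rw [IntermediateField.coe_sum]
    refine Finset.sum_congr rfl fun i _ => ?_
    rw [IntermediateField.coe_smul, Algebra.smul_def]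
  have hκ : ((∑ i, d i • galF N φ⁻¹ (u i) : FF N) : LaurentSeries Qb) = ∑ i, t i := hcoe _ _
  refine ⟨∑ i, d i • galF N φ⁻¹ (u i), ?_, ∑ i, cs (c i) * z i - r, ?_, ?_⟩
  · rw [← mem_GR_iff, hκ]
    exact sum_mem fun i _ => ht i
  · exact sub_mem (sum_mem fun i _ => mul_mem (cs_mem_GR (hc i)) (hzG i)) hr
  · rw [hκ, hsum, hxe, hcoe, map_sum]
    have h1 : ∀ i, Vq Qb e (cs (c i) * (u i : LaurentSeries Qb)) =
        t i ^ e + cs (e : Qb) * (cs (c i) * z i) := by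
      intro i
      have h2 : Vq Qb e (cs (c i)) = cs (c i) := SS.Vq_cst e (c i)
      rw [map_mul, h2, hz i, mul_pow, ← map_pow, hd]
      ring
    rw [Finset.sum_congr rfl fun i _ => h1 i, Finset.sum_add_distrib, ← Finset.mul_sum]
    ring

end

end Fermat.Agent.S15.B.Raise
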