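import Fermat.Agent.S15.B.Raise.StepV
import Fermat.Agent.S15.B.Raise.GaussNorm

/-!
# S15 / B / Raise / Step : one application of `T_e` raises the level of congruence

`w ∈ 1 + ϖ GR`, `ϖ ∈ m_A`, `δ ∣ ϖ^e`, `δ ∣ e`  ⇒  `T_e w = m^e w'`, `w' ∈ 1 + δ GR`.
-/

set_option autoImplicit false

open AlgebraicCurve ModularCurve

namespace Fermat.Agent.S15.B.Raise

open Fermat.Agent.ES (Qb FF GQ galF Vq normSer heckeSer twist)
open Fermat.Agent.S37.Mod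
open Fermat.Agent

noncomputable section

variable {A : ValuationSubring Qb} {e : ℕ} {N : ℕ} [NeZero N]

/-! ### TASK S15/B-Raise-S3 -/

/-- **STEP.**  `T w = Vq w * normSer w` (`ES.coe_heckeU`, `ES.coe_heckeF`, `ES.heckeSer`).  `Vq w = m^e w₁`, `w₁ ∈ 1 + e GR ⊆ 1 + δ GR` (`exists_Vq_eq`, `U1.mono h2`);
`normSer w = 1 + ϖ^e x' + e ϖ B ∈ 1 + δ GR` (`normSer_expand`, `h1`, `h2`).  `w' := T w / m^e`, a unit of `FF N`, with series `w₁ * normSer w` (`U1.mul`). -/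
theorem step [NeZero e] (he : e.Prime) (heN : ¬ e ∣ N) (hA : A.LiesOverPrime e)
    {y : FF N} {yt : resF N A} (hG : S19.Geo0.Good (gaussVFF N A) y yt)
    (hR : S19.Geo0.RatStr (S19.Mod.αI N A) (gaussVFF N A) (e : Qb) y)
    {ϖ δ : Qb} (hϖ : ϖ ∈ A.nonunits) (hδ : δ ∈ A) (h1 : ∃ b ∈ A, ϖ ^ e = δ * b)
    (h2 : ∃ b ∈ A, (e : Qb) = δ * b) (w : (FF N)ˣ)
    (hw : U1 A ϖ ((w : FF N) : LaurentSeries Qb)) :
    ∃ m w' : (FF N)ˣ, ES.heckeU N e he heN w = m ^ e * w' ∧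
      U1 A δ ((w' : FF N) : LaurentSeries Qb) := by
  obtain ⟨m, w₁, hw₁, hV⟩ := exists_Vq_eq he hA hG hR hϖ (w : FF N) hw
  obtain ⟨x, hx, hwx⟩ := hw
  have hϖA : ϖ ∈ A := A.nonunits_subset hϖ
  obtain ⟨x', hx', B, hB, hN⟩ := normSer_expand he hA hϖA hx
  obtain ⟨b₁, hb₁, e1⟩ := h1
  obtain ⟨b₂, hb₂, e2⟩ := h2
  have hNU : U1 A δ (normSer e ((w : FF N) : LaurentSeries Qb)) := by
    refine ⟨cs b₁ * x' + cs (b₂ * ϖ) * B, add_mem (mul_mem (cs_mem_GR hb₁) hx')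
      (mul_mem (cs_mem_GR (mul_mem hb₂ hϖA)) hB), ?_⟩
    have e3 : cs (ϖ ^ e) = cs δ * cs b₁ := by
      rw [e1]
      exact map_mul (algebraMap Qb (LaurentSeries Qb)) _ _
    have e4 : cs ((e : Qb) * ϖ) = cs δ * cs (b₂ * ϖ) := by
      rw [e2, mul_assoc]
      exact map_mul (algebraMap Qb (LaurentSeries Qb)) _ _
    rw [hwx, hN, e3, e4]
    ring
  have hU : U1 A δ (w₁ * normSer e ((w : FF N) : LaurentSeries Qb)) :=
    U1.mul hδ (U1.mono ⟨b₂, hb₂, e2⟩ hw₁) hNU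
  refine ⟨m, (m ^ e)⁻¹ * ES.heckeU N e he heN w, by rw [mul_inv_cancel_left], ?_⟩
  have hm0 : (((m : FF N) : LaurentSeries Qb)) ^ e ≠ 0 :=
    pow_ne_zero _ (fun h => m.ne_zero (Subtype.ext h))
  have key : ((((m ^ e)⁻¹ * ES.heckeU N e he heN w : (FF N)ˣ) : FF N) : LaurentSeries Qb) =
      w₁ * normSer e ((w : FF N) : LaurentSeries Qb) := by
    apply mul_left_cancel₀ hm0
    have h3 : ((m : FF N) : LaurentSeries Qb) ^ e *
        ((((m ^ e)⁻¹ * ES.heckeU N e he heN w : (FF N)ˣ) : FF N) : LaurentSeries Qb) =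
        (((ES.heckeU N e he heN w : (FF N)ˣ) : FF N) : LaurentSeries Qb) := by
      have h4 : (m ^ e * ((m ^ e)⁻¹ * ES.heckeU N e he heN w) : (FF N)ˣ) =
          ES.heckeU N e he heN w := mul_inv_cancel_left _ _
      have h5 := congrArg (fun u : (FF N)ˣ => ((u : FF N) : LaurentSeries Qb)) h4
      simpa only [Units.val_mul, Units.val_pow_eq_pow_val, MulMemClass.coe_mul,
        SubmonoidClass.coe_pow] using h5
    rw [h3, ES.coe_heckeU, ES.coe_heckeF, ES.heckeSer, hV, mul_assoc]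
  rw [key]
  exact hU

end

end Fermat.Agent.S15.B.Raise
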