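import Fermat.Agent.S15.B.Raise.GaussGal

/-!
# S15 / B / Raise / U1 : the groups `1 + δ GR`
-/

set_option autoImplicit false

open AlgebraicCurve ModularCurve

namespace Fermat.Agent.S15.B.Raise

open Fermat.Agent.ES (Qb FF GQ galF Vq normSer heckeSer twist)
open Fermat.Agent.S37.Mod
open Fermat.Agent

noncomputable section

variable {A : ValuationSubring Qb} {e : ℕ} {N : ℕ} [NeZero N]

/-! ### the groups `1 + δ GR` -/

/-- `w ∈ 1 + δ GR`. -/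
def U1 (A : ValuationSubring Qb) (δ : Qb) (w : LaurentSeries Qb) : Prop :=
  ∃ z ∈ GR A, w = 1 + cs δ * z

/-! ### TASK S15/B-Raise-S1 -/

/-- (`δ = 0` : `x = 0`.  Otherwise `x := (w - 1) / δ`, whose series is `z ∈ GR`; `mem_GR_iff`.) -/
theorem U1.exists_O {δ : Qb} {w : FF N} (hw : U1 A δ (w : LaurentSeries Qb)) :
    ∃ x : FF N, x ∈ (gaussVFF N A).O ∧ w = 1 + algebraMap Qb (FF N) δ * x := by
  obtain ⟨z, hz, hwz⟩ := hw
  by_cases hδ : δ = 0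
  · refine ⟨0, zero_mem _, ?_⟩
    rw [mul_zero, add_zero]
    apply Subtype.ext
    rw [hwz, hδ, cs, map_zero, zero_mul, add_zero]
    rfl
  · have hδF : algebraMap Qb (FF N) δ ≠ 0 := (map_ne_zero _).2 hδ
    have hδL : cs δ ≠ 0 := (map_ne_zero _).2 hδ
    refine ⟨(algebraMap Qb (FF N) δ)⁻¹ * (w - 1), ?_, ?_⟩
    · rw [← mem_GR_iff]
      have e1 : (((algebraMap Qb (FF N) δ)⁻¹ * (w - 1) : FF N) : LaurentSeries Qb) =
          (cs δ)⁻¹ * ((w : LaurentSeries Qb) - 1) := rfl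
      rw [e1, hwz, add_sub_cancel_left, inv_mul_cancel_left₀ hδL]
      exact hz
    · rw [mul_inv_cancel_left₀ hδF, add_sub_cancel]

theorem U1.of_O {δ : Qb} {x : FF N} (hx : x ∈ (gaussVFF N A).O) :
    U1 A δ ((1 + algebraMap Qb (FF N) δ * x : FF N) : LaurentSeries Qb) :=
  ⟨x, (mem_GR_iff x).2 hx, rfl⟩

/-- `δ' = δ b`, `b ∈ A`. -/
theorem U1.mono {δ δ' : Qb} (h : ∃ b ∈ A, δ' = δ * b) {w : LaurentSeries Qb} (hw : U1 A δ' w) :
    U1 A δ w := by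
  obtain ⟨b, hb, rfl⟩ := h
  obtain ⟨z, hz, rfl⟩ := hw
  exact ⟨cs b * z, mul_mem (cs_mem_GR hb) hz, by rw [cs, cs, cs, map_mul, mul_assoc]⟩

theorem U1.mul {δ : Qb} (hδ : δ ∈ A) {w w' : LaurentSeries Qb} (hw : U1 A δ w) (hw' : U1 A δ w') :
    U1 A δ (w * w') := by
  obtain ⟨z, hz, rfl⟩ := hw
  obtain ⟨z', hz', rfl⟩ := hw'
  exact ⟨z + z' + cs δ * (z * z'),
    add_mem (add_mem hz hz') (mul_mem (cs_mem_GR hδ) (mul_mem hz hz')), by ring⟩

theorem U1.one (δ : Qb) : U1 A δ 1 := ⟨0, zero_mem _, by rw [mul_zero, add_zero]⟩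

end

end Fermat.Agent.S15.B.Raise
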