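import Fermat.Agent.S15.B.Raise.Lift
import Fermat.Agent.S15.B.Raise.U1

/-!
# S15 / B / Raise / StepV : the `V`-part of STEP
-/

set_option autoImplicit false

open AlgebraicCurve ModularCurve

namespace Fermat.Agent.S15.B.Raise

open Fermat.Agent.ES (Qb FF GQ galF Vq normSer heckeSer twist)
open Fermat.Agent.S37.Mod
open Fermat.Agent

noncomputable section

variable {A : ValuationSubring Qb} {e : ℕ} {N : ℕ} [NeZero N]

/-! ### TASK S15/B-Raise-S2 -/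

/-- **the `V`-part.**  `w = 1 + ϖ x`, `x ∈ O` (`U1.exists_O`).  `Vq x = κ^e + e z` (`exists_kappa`).  `ρ^e = ϖ` (`IsAlgClosed.exists_pow_nat_eq`), `ρ ∈ m_A`
(`ρ ∈ A` by `S36.Base.mem_of_pow_mem`; if `ρ` were a unit so would be `ϖ`; or with `A.valuation`: `v ρ ^ e = v ϖ < 1`).  `m := 1 + ρ κ ∈ FF N`, `≠ 0` (`one_add_ne_zero`).
`Vq w = 1 + cs ϖ * Vq x = 1 + (cs ρ * κ)^e + e cs ϖ z`, `m^e = 1 + (cs ρ κ)^e + e (cs ρ κ) r` (`exists_one_add_pow_eq_GR`), so `Vq w = m^e + e s`, `s := cs ϖ z - cs ρ κ r ∈ GR`, and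
`Vq w = m^e (1 + e s (m⁻¹)^e)`, `m⁻¹ ∈ GR` (`inv_one_add_mem_GR`). -/
theorem exists_Vq_eq [NeZero e] (he : e.Prime) (hA : A.LiesOverPrime e)
    {y : FF N} {yt : resF N A} (hG : S19.Geo0.Good (gaussVFF N A) y yt)
    (hR : S19.Geo0.RatStr (S19.Mod.αI N A) (gaussVFF N A) (e : Qb) y)
    {ϖ : Qb} (hϖ : ϖ ∈ A.nonunits) (w : FF N) (hw : U1 A ϖ (w : LaurentSeries Qb)) :
    ∃ m : (FF N)ˣ, ∃ w₁ : LaurentSeries Qb, U1 A (e : Qb) w₁ ∧
      Vq Qb e (w : LaurentSeries Qb) = ((m : FF N) : LaurentSeries Qb) ^ e * w₁ := by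
  obtain ⟨x, hx, hwx⟩ := hw.exists_O
  obtain ⟨κ, hκ, z, hz, hV⟩ := exists_kappa he hA hG hR x hx
  obtain ⟨ρ, hρ⟩ := IsAlgClosed.exists_pow_nat_eq ϖ he.pos
  have hρm : ρ ∈ A.nonunits := by
    rw [ValuationSubring.mem_nonunits_iff] at hϖ ⊢
    rw [← hρ, map_pow] at hϖ
    exact (pow_lt_one_iff he.ne_zero).mp hϖ
  have hρA : ρ ∈ A := A.nonunits_subset hρm
  have hϖA : ϖ ∈ A := A.nonunits_subset hϖ
  have hκG : (κ : LaurentSeries Qb) ∈ GR A := (mem_GR_iff κ).2 hκ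
  obtain ⟨t, ht⟩ : ∃ t : LaurentSeries Qb, t = cs ρ * (κ : LaurentSeries Qb) := ⟨_, rfl⟩
  have htG : t ∈ GR A := by rw [ht]; exact mul_mem (cs_mem_GR hρA) hκG
  have hne : 1 + t ≠ 0 := by rw [ht]; exact one_add_ne_zero hρm hκG
  have hinv : (1 + t)⁻¹ ∈ GR A := by rw [ht]; exact inv_one_add_mem_GR hρm hκG
  obtain ⟨r, hr, hpow⟩ := exists_one_add_pow_eq_GR (A := A) he htG
  have hm : ((1 + algebraMap Qb (FF N) ρ * κ : FF N) : LaurentSeries Qb) = 1 + t := by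
    rw [ht]; rfl
  have hm0 : (1 + algebraMap Qb (FF N) ρ * κ : FF N) ≠ 0 := by
    intro h0
    apply hne
    rw [← hm, h0]
    rfl
  have hte : t ^ e = cs ϖ * (κ : LaurentSeries Qb) ^ e := by
    rw [ht, mul_pow, ← map_pow, hρ]
  have hw' : (w : LaurentSeries Qb) = 1 + cs ϖ * (x : LaurentSeries Qb) := by
    rw [hwx]; rfl
  have hVw : Vq Qb e (w : LaurentSeries Qb) =
      (1 + t) ^ e + cs (e : Qb) * (cs ϖ * z - t * r) := by
    rw [hw', map_add, map_one, map_mul, SS.Vq_cst, hV, hpow, hte]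
    ring
  refine ⟨Units.mk0 _ hm0, 1 + cs (e : Qb) * ((cs ϖ * z - t * r) * ((1 + t)⁻¹) ^ e),
    ⟨_, mul_mem (sub_mem (mul_mem (cs_mem_GR hϖA) hz) (mul_mem htG hr)) (pow_mem hinv e), rfl⟩, ?_⟩
  rw [Units.val_mk0, hm, hVw]
  have h1 : (1 + t) ^ e * ((1 + t)⁻¹) ^ e = 1 := by
    rw [← mul_pow, mul_inv_cancel₀ hne, one_pow]
  linear_combination (-(cs (e : Qb) * (cs ϖ * z - t * r))) * h1

end

end Fermat.Agent.S15.B.Raise
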